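import Fermat.Agent.MultTableExponent.Energy

/-!
# Coprime pairs with prescribed numbers of prime factors in blocks

From the primes of each block `(w_i, w_{i+1}]` two disjoint sets of `k` primes are chosen. The sum
of `1 / (a b)` over the pairs so built is at least `(S ^ k / k!) ^ 2` a block, if each block has
`∑ 1 / p ≥ S + 1`.
-/

set_option autoImplicit false

noncomputable section

namespace FA.DivisorInterval

open Finset
open FA.ErdosKac (primesUpTo mem_primesUpTo recipSum)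
open FA.MultTableExponent (omegaBelow)

/-- **A lower bound for an elementary symmetric function** of small numbers. -/
theorem sub_pow_le_factorial_mul_esymm {Q : Finset ℕ} {x : ℕ → ℝ} {η : ℝ}
    (hx : ∀ p ∈ Q, 0 ≤ x p ∧ x p ≤ η) (hη : 0 ≤ η) :
    ∀ k : ℕ, (k : ℝ) * η ≤ ∑ p ∈ Q, x p →
      (∑ p ∈ Q, x p - k * η) ^ k ≤
        (k.factorial : ℝ) * ∑ A ∈ Q.powersetCard k, ∏ p ∈ A, x p := by
  classical
  intro k
  induction k with
  | zero => simp
  | succ k ih =>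
    intro hk
    push_cast at hk ⊢
    obtain ⟨S, hS⟩ : ∃ S, S = ∑ p ∈ Q, x p := ⟨_, rfl⟩
    obtain ⟨e, he⟩ : ∃ e : ℕ → ℝ, e = fun j => ∑ A ∈ Q.powersetCard j, ∏ p ∈ A, x p := ⟨_, rfl⟩
    rw [← hS] at hk ih ⊢
    have hk' : (k : ℝ) * η ≤ S := by linarith
    have hcount : ((k : ℝ) + 1) * e (k + 1) =
        ∑ u ∈ (Q.powersetCard k).sigma (fun A => Q \ A), (∏ p ∈ u.1, x p) * x u.2 := by
      rw [he, mul_sum]
      have hcard : ∀ B ∈ Q.powersetCard (k + 1),
          ((k : ℝ) + 1) * ∏ p ∈ B, x p = ∑ _p ∈ B, ∏ p ∈ B, x p := fun B hB => by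
        rw [sum_const, (mem_powersetCard.1 hB).2, nsmul_eq_mul]
        push_cast
        rfl
      rw [sum_congr rfl hcard, sum_sigma']
      refine sum_bij' (fun u _ => (⟨u.1.erase u.2, u.2⟩ : Σ _ : Finset ℕ, ℕ))
        (fun u _ => (⟨insert u.2 u.1, u.2⟩ : Σ _ : Finset ℕ, ℕ)) (fun u hu => ?_) (fun u hu => ?_)
        (fun u hu => ?_) (fun u hu => ?_) (fun u hu => ?_)
      · obtain ⟨hB, hp⟩ := mem_sigma.1 hu
        obtain ⟨hBQ, hBk⟩ := mem_powersetCard.1 hB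
        refine mem_sigma.2 ⟨mem_powersetCard.2 ⟨(erase_subset _ _).trans hBQ, ?_⟩,
          mem_sdiff.2 ⟨hBQ hp, notMem_erase _ _⟩⟩
        rw [card_erase_of_mem hp, hBk, Nat.add_sub_cancel]
      · obtain ⟨hA, hp⟩ := mem_sigma.1 hu
        obtain ⟨hAQ, hAk⟩ := mem_powersetCard.1 hA
        obtain ⟨hpQ, hpA⟩ := mem_sdiff.1 hp
        refine mem_sigma.2 ⟨mem_powersetCard.2 ⟨insert_subset hpQ hAQ, ?_⟩, mem_insert_self _ _⟩
        rw [card_insert_of_notMem hpA, hAk]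
      · obtain ⟨hB, hp⟩ := mem_sigma.1 hu
        simp only [insert_erase hp]
      · obtain ⟨hA, hp⟩ := mem_sigma.1 hu
        simp only [erase_insert (mem_sdiff.1 hp).2]
      · obtain ⟨hB, hp⟩ := mem_sigma.1 hu
        exact (prod_erase_mul _ _ hp).symm
    have hge : e k * (S - k * η) ≤ ((k : ℝ) + 1) * e (k + 1) := by
      rw [hcount, sum_sigma, he]
      simp only [sum_mul, ← mul_sum]
      refine sum_le_sum fun A hA => ?_
      obtain ⟨hAQ, hAk⟩ := mem_powersetCard.1 hA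
      refine mul_le_mul_of_nonneg_left ?_ (prod_nonneg fun p hp => (hx p (hAQ hp)).1)
      have h1 : ∑ p ∈ A, x p ≤ k * η := by
        have := sum_le_card_nsmul A x η fun p hp => (hx p (hAQ hp)).2
        rwa [hAk, nsmul_eq_mul] at this
      have h2 := sum_sdiff (f := x) hAQ
      rw [← hS] at h2
      linarith
    have he0 : ∀ j, e j = ∑ A ∈ Q.powersetCard j, ∏ p ∈ A, x p := fun j => by rw [he]
    have ih' := ih hk'
    rw [← he0] at ih'
    rw [← he0, Nat.factorial_succ, pow_succ]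
    push_cast
    have hf : (0 : ℝ) ≤ k.factorial := Nat.cast_nonneg _
    calc (S - (↑k + 1) * η) ^ k * (S - (↑k + 1) * η)
        ≤ (S - k * η) ^ k * (S - k * η) := mul_le_mul
          (pow_le_pow_left₀ (by linarith) (by linarith) k) (by linarith) (by linarith)
          (pow_nonneg (by linarith) k)
      _ ≤ (k.factorial : ℝ) * e k * (S - k * η) :=
          mul_le_mul_of_nonneg_right ih' (by linarith)
      _ ≤ (k.factorial : ℝ) * (((k : ℝ) + 1) * e (k + 1)) := by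
          rw [mul_assoc]; exact mul_le_mul_of_nonneg_left hge hf
      _ = _ := by ring

/-- The primes of `(a, b]`. -/
def blockPrimes (a b : ℕ) : Finset ℕ := (primesUpTo b).filter (a < ·)

theorem sum_blockPrimes {a b : ℕ} (h : a ≤ b) :
    ∑ p ∈ blockPrimes a b, (p : ℝ)⁻¹ = recipSum b - recipSum a := by
  have e : (primesUpTo b).filter (fun p => ¬a < p) = primesUpTo a := by
    ext p
    simp only [mem_filter, mem_primesUpTo]
    exact ⟨fun hp => ⟨hp.1.1, not_lt.1 hp.2⟩, fun hp => ⟨⟨hp.1, hp.2.trans h⟩, not_lt.2 hp.2⟩⟩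
  rw [eq_sub_iff_add_eq, recipSum, recipSum, blockPrimes, ← e,
    sum_filter_add_sum_filter_not]

theorem mem_blockPrimes {a b p : ℕ} : p ∈ blockPrimes a b ↔ p.Prime ∧ p ≤ b ∧ a < p := by
  rw [blockPrimes, mem_filter, mem_primesUpTo, and_assoc]

/-- A pair built from `r` blocks of the sequence `w`. -/
def IsSplitPair (w : ℕ → ℕ) (k r : ℕ) (z : ℕ × ℕ) : Prop :=
  0 < z.1 ∧ 0 < z.2 ∧ z.1.Coprime z.2 ∧
    (∀ p ∈ z.1.primeFactors ∪ z.2.primeFactors, p ≤ w (r + 1)) ∧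
    z.1 ≤ w (r + 1) ^ (k * r) ∧ z.2 ≤ w (r + 1) ^ (k * r) ∧
    z.1.primeFactors.card = k * r ∧ z.2.primeFactors.card = k * r ∧
    ∀ i, 1 ≤ i → omegaBelow (w i) z.1 + omegaBelow (w i) z.2 ≤ 2 * (k * (i - 1))

theorem omegaBelow_le_card (w n : ℕ) : omegaBelow w n ≤ n.primeFactors.card := card_filter_le _ _

/-- The products of the sets of a block. -/
theorem prod_block_spec {a b : ℕ} {A : Finset ℕ} (hA : A ⊆ blockPrimes a b) :
    (∏ p ∈ A, p).primeFactors = A ∧ 0 < ∏ p ∈ A, p ∧ ∏ p ∈ A, p ≤ b ^ A.card :=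
  ⟨Nat.primeFactors_prod fun _ hp => (mem_blockPrimes.1 (hA hp)).1,
    prod_pos fun _ hp => (mem_blockPrimes.1 (hA hp)).1.pos,
    prod_le_pow_card _ _ _ fun _ hp => (mem_blockPrimes.1 (hA hp)).2.1⟩

/-- One block more. -/
theorem IsSplitPair.extend {w : ℕ → ℕ} {k r : ℕ} (hw : Monotone w) {z : ℕ × ℕ}
    (hz : IsSplitPair w k r z) {A B : Finset ℕ} (hA : A ⊆ blockPrimes (w (r + 1)) (w (r + 2)))
    (hAk : A.card = k) (hB : B ⊆ blockPrimes (w (r + 1)) (w (r + 2))) (hBk : B.card = k)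
    (hAB : Disjoint A B) :
    IsSplitPair w k (r + 1) (z.1 * ∏ p ∈ A, p, z.2 * ∏ p ∈ B, p) ∧
      (z.1 * ∏ p ∈ A, p).primeFactors.filter (w (r + 1) < ·) = A ∧
      (z.2 * ∏ p ∈ B, p).primeFactors.filter (w (r + 1) < ·) = B := by
  obtain ⟨h1, h2, hco, hp, hs1, hs2, hc1, hc2, hbelow⟩ := hz
  obtain ⟨eA, posA, leA⟩ := prod_block_spec hA
  obtain ⟨eB, posB, leB⟩ := prod_block_spec hB
  have hbig : ∀ p ∈ A ∪ B, w (r + 1) < p ∧ p ≤ w (r + 2) := fun p hp => by
    rcases mem_union.1 hp with h | h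
    · exact ⟨(mem_blockPrimes.1 (hA h)).2.2, (mem_blockPrimes.1 (hA h)).2.1⟩
    · exact ⟨(mem_blockPrimes.1 (hB h)).2.2, (mem_blockPrimes.1 (hB h)).2.1⟩
  have hsmall : ∀ p ∈ z.1.primeFactors ∪ z.2.primeFactors, ¬w (r + 1) < p := fun p h =>
    not_lt.2 (hp p h)
  have f1 : (z.1 * ∏ p ∈ A, p).primeFactors = z.1.primeFactors ∪ A := by
    rw [Nat.primeFactors_mul h1.ne' posA.ne', eA]
  have f2 : (z.2 * ∏ p ∈ B, p).primeFactors = z.2.primeFactors ∪ B := by
    rw [Nat.primeFactors_mul h2.ne' posB.ne', eB]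
  have d1 : Disjoint z.1.primeFactors A := disjoint_left.2 fun p h h' =>
    hsmall p (mem_union_left _ h) (hbig p (mem_union_left _ h')).1
  have d2 : Disjoint z.2.primeFactors B := disjoint_left.2 fun p h h' =>
    hsmall p (mem_union_right _ h) (hbig p (mem_union_right _ h')).1
  have hmono : w (r + 1) ≤ w (r + 2) := hw (by omega)
  refine ⟨⟨Nat.mul_pos h1 posA, Nat.mul_pos h2 posB, ?_, ?_, ?_, ?_, ?_, ?_, ?_⟩, ?_, ?_⟩
  · rw [← Nat.disjoint_primeFactors (Nat.mul_pos h1 posA).ne' (Nat.mul_pos h2 posB).ne', f1, f2,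
      disjoint_union_left, disjoint_union_right, disjoint_union_right]
    exact ⟨⟨hco.disjoint_primeFactors, disjoint_left.2 fun p h h' =>
        hsmall p (mem_union_left _ h) (hbig p (mem_union_right _ h')).1⟩,
      ⟨disjoint_left.2 fun p h h' =>
        hsmall p (mem_union_right _ h') (hbig p (mem_union_left _ h)).1, hAB⟩⟩
  · intro p h
    rw [f1, f2, mem_union, mem_union, mem_union] at h
    rcases h with (h | h) | (h | h)
    · exact (hp p (mem_union_left _ h)).trans hmono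
    · exact (hbig p (mem_union_left _ h)).2
    · exact (hp p (mem_union_right _ h)).trans hmono
    · exact (hbig p (mem_union_right _ h)).2
  · rw [Nat.mul_succ, pow_add]
    exact Nat.mul_le_mul (hs1.trans (Nat.pow_le_pow_left hmono _)) (hAk ▸ leA)
  · rw [Nat.mul_succ, pow_add]
    exact Nat.mul_le_mul (hs2.trans (Nat.pow_le_pow_left hmono _)) (hBk ▸ leB)
  · rw [f1, card_union_of_disjoint d1, hc1, hAk, Nat.mul_succ]
  · rw [f2, card_union_of_disjoint d2, hc2, hBk, Nat.mul_succ]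
  · intro i hi
    rcases le_or_gt i (r + 1) with h | h
    · have e : ∀ C ⊆ A ∪ B, C.filter (fun p => p ≤ w i) = ∅ := fun C hC =>
        filter_eq_empty_iff.2 fun p hp => not_le.2 ((hw h).trans_lt (hbig p (hC hp)).1)
      have hi' := hbelow i hi
      rw [omegaBelow, omegaBelow] at hi' ⊢
      rw [f1, f2, filter_union, filter_union, e A subset_union_left, e B subset_union_right,
        union_empty, union_empty]
      exact hi'
    · refine (Nat.add_le_add (omegaBelow_le_card _ _) (omegaBelow_le_card _ _)).trans ?_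
      rw [f1, f2, card_union_of_disjoint d1, card_union_of_disjoint d2, hc1, hc2, hAk, hBk,
        ← Nat.mul_succ, ← two_mul]
      exact Nat.mul_le_mul_left _ (Nat.mul_le_mul_left _ (by omega))
  · rw [f1, filter_union, filter_false_of_mem fun p h => hsmall p (mem_union_left _ h), empty_union,
      filter_true_of_mem fun p h => (hbig p (mem_union_left _ h)).1]
  · rw [f2, filter_union, filter_false_of_mem fun p h => hsmall p (mem_union_right _ h),
      empty_union, filter_true_of_mem fun p h => (hbig p (mem_union_right _ h)).1]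

/-- **The pairs of `r` blocks are plentiful.** -/
theorem exists_split_family {w : ℕ → ℕ} {k : ℕ} {S : ℝ} (hw : Monotone w) (hS : 0 ≤ S)
    (hk : 2 * k ≤ w 1) : ∀ r : ℕ,
    (∀ i ∈ Icc 1 r, S + 1 ≤ ∑ p ∈ blockPrimes (w i) (w (i + 1)), (p : ℝ)⁻¹) →
      ∃ F : Finset (ℕ × ℕ), (∀ z ∈ F, IsSplitPair w k r z) ∧
        ((S ^ k / k.factorial) ^ 2) ^ r ≤ ∑ z ∈ F, ((z.1 : ℝ) * z.2)⁻¹ := by
  classical
  intro r
  induction r with
  | zero =>
    refine fun _ => ⟨{(1, 1)}, fun z hz => ?_, by simp⟩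
    rw [mem_singleton] at hz
    subst hz
    simp [IsSplitPair, omegaBelow]
  | succ r ih =>
    intro h
    obtain ⟨F, hF, hsum⟩ := ih fun i hi => h i (mem_Icc.2 ⟨(mem_Icc.1 hi).1, by
      have := (mem_Icc.1 hi).2; omega⟩)
    obtain ⟨Q, hQ⟩ : ∃ Q, Q = blockPrimes (w (r + 1)) (w (r + 2)) := ⟨_, rfl⟩
    have hSQ : S + 1 ≤ ∑ p ∈ Q, (p : ℝ)⁻¹ := hQ ▸ h (r + 1) (mem_Icc.2 ⟨by omega, le_rfl⟩)
    obtain ⟨η, hη⟩ : ∃ η : ℝ, η = ((2 * k + 1 : ℕ) : ℝ)⁻¹ := ⟨_, rfl⟩
    have hη0 : 0 ≤ η := hη ▸ by positivity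
    have hkη : 2 * (k : ℝ) * η ≤ 1 := by
      rw [hη, ← div_eq_mul_inv, div_le_one (by positivity)]
      push_cast
      linarith
    have hx : ∀ p ∈ Q, 0 ≤ (p : ℝ)⁻¹ ∧ (p : ℝ)⁻¹ ≤ η := fun p hp => by
      refine ⟨by positivity, hη ▸ inv_anti₀ (by positivity) (Nat.cast_le.2 ?_)⟩
      have h1 := (mem_blockPrimes.1 (hQ ▸ hp)).2.2
      have h2 := hw (show 1 ≤ r + 1 by omega)
      omega
    obtain ⟨G, hG⟩ : ∃ G, G = (Q.powersetCard k).sigma fun A => (Q \ A).powersetCard k := ⟨_, rfl⟩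
    obtain ⟨B, hB⟩ : ∃ B : ℝ, B = S ^ k / k.factorial := ⟨_, rfl⟩
    have hB0 : 0 ≤ B := hB ▸ by positivity
    have hGsum : B ^ 2 ≤ ∑ u ∈ G, (∏ p ∈ u.1, (p : ℝ)⁻¹) * ∏ p ∈ u.2, (p : ℝ)⁻¹ := by
      have hkf : (0 : ℝ) < k.factorial := Nat.cast_pos.2 k.factorial_pos
      have hlow : ∀ Q' ⊆ Q, S + 1 - k * η ≤ ∑ p ∈ Q', (p : ℝ)⁻¹ →
          B ≤ ∑ A ∈ Q'.powersetCard k, ∏ p ∈ A, (p : ℝ)⁻¹ := fun Q' hQ' hs => by
        rw [hB, div_le_iff₀ hkf, mul_comm]
        refine le_trans (pow_le_pow_left₀ hS ?_ k) (sub_pow_le_factorial_mul_esymm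
          (fun p hp => hx p (hQ' hp)) hη0 k
          (by linarith [mul_nonneg (Nat.cast_nonneg (α := ℝ) k) hη0]))
        linarith
      rw [hG, sum_sigma, sq]
      simp only [← mul_sum]
      refine le_trans ?_ (sum_le_sum fun A hA => mul_le_mul_of_nonneg_left (hlow (Q \ A)
        sdiff_subset ?_) (prod_nonneg fun p _ => by positivity))
      · rw [← sum_mul]
        exact mul_le_mul_of_nonneg_right
          (hlow Q Subset.rfl (by linarith [mul_nonneg (Nat.cast_nonneg (α := ℝ) k) hη0])) hB0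
      · obtain ⟨hAQ, hAk⟩ := mem_powersetCard.1 hA
        have h1 : ∑ p ∈ A, (p : ℝ)⁻¹ ≤ k * η := by
          have := sum_le_card_nsmul A (fun p : ℕ => (p : ℝ)⁻¹) η fun p hp => (hx p (hAQ hp)).2
          rwa [hAk, nsmul_eq_mul] at this
        have h2 := sum_sdiff (f := fun p : ℕ => (p : ℝ)⁻¹) hAQ
        linarith
    have hmem : ∀ u ∈ G, u.1 ⊆ Q ∧ u.1.card = k ∧ u.2 ⊆ Q ∧ u.2.card = k ∧ Disjoint u.1 u.2 :=
      fun u hu => by
        rw [hG, mem_sigma, mem_powersetCard, mem_powersetCard, subset_sdiff] at hu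
        exact ⟨hu.1.1, hu.1.2, hu.2.1.1, hu.2.2, hu.2.1.2.symm⟩
    obtain ⟨φ, hφ⟩ : ∃ φ : (ℕ × ℕ) × (Σ _ : Finset ℕ, Finset ℕ) → ℕ × ℕ,
        φ = fun v => (v.1.1 * ∏ p ∈ v.2.1, p, v.1.2 * ∏ p ∈ v.2.2, p) := ⟨_, rfl⟩
    have hext : ∀ v ∈ F ×ˢ G, IsSplitPair w k (r + 1) (φ v) ∧
        (φ v).1.primeFactors.filter (w (r + 1) < ·) = v.2.1 ∧
        (φ v).2.primeFactors.filter (w (r + 1) < ·) = v.2.2 := fun v hv => by
      obtain ⟨h1, h2, h3, h4, h5⟩ := hmem v.2 (mem_product.1 hv).2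
      rw [hφ]
      exact (hF v.1 (mem_product.1 hv).1).extend hw (hQ ▸ h1) h2 (hQ ▸ h3) h4 h5
    refine ⟨(F ×ˢ G).image φ, fun z hz => ?_, ?_⟩
    · obtain ⟨v, hv, rfl⟩ := mem_image.1 hz
      exact (hext v hv).1
    · rw [sum_image fun v hv v' hv' e => ?_, sum_product, pow_succ, hφ]
      · refine (mul_le_mul hsum (hB ▸ hGsum) (by positivity)
          (sum_nonneg fun z _ => by positivity)).trans_eq ?_
        rw [sum_mul_sum]
        refine sum_congr rfl fun z _ => sum_congr rfl fun u _ => ?_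
        push_cast
        rw [prod_inv_distrib, prod_inv_distrib, ← mul_inv, ← mul_inv]
        ring
      · obtain ⟨-, a1, a2⟩ := hext v hv
        obtain ⟨-, b1, b2⟩ := hext v' hv'
        obtain ⟨⟨a, b⟩, A, B⟩ := v
        obtain ⟨⟨a', b'⟩, A', B'⟩ := v'
        obtain rfl : A = A' := a1.symm.trans ((congrArg (fun z : ℕ × ℕ =>
          z.1.primeFactors.filter (w (r + 1) < ·)) e).trans b1)
        obtain rfl : B = B' := a2.symm.trans ((congrArg (fun z : ℕ × ℕ =>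
          z.2.primeFactors.filter (w (r + 1) < ·)) e).trans b2)
        obtain ⟨h1, -, h3, -, -⟩ := hmem ⟨A, B⟩ (mem_product.1 hv).2
        simp only [hφ, Prod.mk.injEq] at e
        obtain rfl : a = a' := Nat.eq_of_mul_eq_mul_right (prod_block_spec (hQ ▸ h1)).2.1 e.1
        obtain rfl : b = b' := Nat.eq_of_mul_eq_mul_right (prod_block_spec (hQ ▸ h3)).2.1 e.2
        rfl

end FA.DivisorInterval

end
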