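import Fermat.Agent.DivisorInterval.Pairs
import Fermat.Agent.Korobov.Energy

/-!
# The multiplicative energy of admissible pairs

A solution of `d₁ m₁ = d₂ m₂` is `(g s, h t), (g t, h s)`. If `max (s, t)` is near `2 ^ j`, with
`Z = min (2 ^ (j + 1), 2 N / 2 ^ j)` near `exp ((log N) ^ τ)`, the tilt by `c / 2`, halved below
this scale, leaves `N M / (log N) ^ (δ + τ - o (1))` solutions, so `N M / (log N) ^ (δ - o (1))` in
all, for `M ≥ N²`.
-/

set_option autoImplicit false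

noncomputable section

namespace FA.DivisorInterval

open Finset Filter
open FA.ErdosKac (primesUpTo mem_primesUpTo recipSum loglog tendsto_loglog)
open FA.MultTableExponent (critRate tableExponent omegaBelow omegaBelow_mul scaleCut tilt quadOf)
open scoped Topology

/-- `y ^ ω_N n · z ^ ω_w n`. -/
def splitTilt (N : ℕ) (y z : ℝ) (w n : ℕ) : ℝ :=
  if n = 0 then 0 else y ^ omegaBelow N n * z ^ omegaBelow w n

theorem splitTilt_nonneg {y z : ℝ} (hy : 0 ≤ y) (hz : 0 ≤ z) (N w n : ℕ) :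
    0 ≤ splitTilt N y z w n := by
  rw [splitTilt]
  split_ifs <;> positivity

theorem omegaBelow_eq_card {N n : ℕ} (h : n ≤ N) : omegaBelow N n = n.primeFactors.card := by
  refine congrArg card (filter_true_of_mem fun p hp => ?_)
  have hp' := Nat.mem_primeFactors.1 hp
  exact (Nat.le_of_dvd (Nat.pos_of_ne_zero hp'.2.2) hp'.2.1).trans h

/-- **The mean of the weight beyond `N`.** -/
theorem exists_sum_splitTilt_le : ∃ C : ℝ, 0 < C ∧ ∀ y z : ℝ, 0 ≤ y → y ≤ 1 → 0 ≤ z → z ≤ 1 →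
    ∀ X N w : ℕ, 2 ≤ w → w ≤ N → N ≤ X → ∑ n ∈ Icc 1 X, splitTilt N y z w n ≤
      C * X * Real.exp ((y - 1) * loglog N + y * (z - 1) * loglog w) := by
  obtain ⟨CH, hCH, hH⟩ := FA.HooleyDelta.exists_sum_le
  obtain ⟨C₁, hC₁⟩ := FA.ErdosKac.exists_abs_recipSum_sub_le
  refine ⟨(CH + 1) * Real.exp (3 * C₁), by positivity,
    fun y z hy hy1 hz hz1 X N w hw hwN hNX => ?_⟩
  have hX : 2 ≤ X := by omega
  have hf0 := splitTilt_nonneg hy hz N w
  have hsum : ∑ n ∈ Icc 1 X, splitTilt N y z w n ≤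
      CH * ((X : ℝ) / Real.log X) * Real.exp (∑ p ∈ primesUpTo X, splitTilt N y z w p / p) := by
    refine hH _ hf0 (by simp [splitTilt, omegaBelow]) (fun m n hmn => ?_) (fun n => ?_) X hX
    · rcases eq_or_ne m 0 with rfl | hm
      · simp [splitTilt]
      rcases eq_or_ne n 0 with rfl | hn
      · simp [splitTilt]
      rw [splitTilt, splitTilt, splitTilt, if_neg hm, if_neg hn, if_neg (Nat.mul_ne_zero hm hn),
        omegaBelow_mul hm hn hmn, omegaBelow_mul hm hn hmn, pow_add, pow_add]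
      ring
    · rw [splitTilt]
      split_ifs with hn
      · exact Nat.cast_nonneg _
      exact (mul_le_one₀ (pow_le_one₀ hy hy1) (by positivity) (pow_le_one₀ hz hz1)).trans
        (Nat.one_le_cast.2 (card_pos.2 ⟨1, Nat.one_mem_divisors.2 hn⟩))
  have hfil : ∀ M, M ≤ X → primesUpTo M = (primesUpTo X).filter fun p => p ≤ M := fun M hM => by
    ext p
    simp only [mem_filter, mem_primesUpTo]
    exact ⟨fun h => ⟨⟨h.1, h.2.trans hM⟩, h.2⟩, fun h => ⟨h.1.1, h.2⟩⟩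
  have hexp : ∑ p ∈ primesUpTo X, splitTilt N y z w p / p =
      recipSum X + (y - 1) * recipSum N + y * (z - 1) * recipSum w := by
    rw [recipSum, recipSum, recipSum, hfil N hNX, hfil w (hwN.trans hNX), sum_filter, sum_filter,
      mul_sum, mul_sum, ← sum_add_distrib, ← sum_add_distrib]
    refine sum_congr rfl fun p hp => ?_
    have hpp := (mem_primesUpTo.1 hp).1
    rw [splitTilt, if_neg hpp.ne_zero, omegaBelow, omegaBelow, hpp.primeFactors, filter_singleton,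
      filter_singleton, div_eq_mul_inv]
    split_ifs with h1 h2 h3 <;> first | (exfalso; omega) | (simp <;> ring)
  rw [hexp] at hsum
  obtain ⟨hX1, hX2⟩ := abs_le.1 (hC₁ X hX)
  obtain ⟨hN1, hN2⟩ := abs_le.1 (hC₁ N (hw.trans hwN))
  obtain ⟨hw1, hw2⟩ := abs_le.1 (hC₁ w hw)
  have hC0 : 0 ≤ C₁ := (abs_nonneg _).trans (hC₁ 2 le_rfl)
  have hb : recipSum X + (y - 1) * recipSum N + y * (z - 1) * recipSum w ≤
      loglog X + (y - 1) * loglog N + y * (z - 1) * loglog w + 3 * C₁ := by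
    rw [loglog, loglog, loglog]
    have h1 := mul_le_mul_of_nonneg_left (show -(recipSum N - Real.log (Real.log N)) ≤ C₁ by
      linarith) (sub_nonneg.2 hy1)
    have h2 := mul_le_mul_of_nonneg_left (show -(recipSum w - Real.log (Real.log w)) ≤ C₁ by
      linarith) (mul_nonneg hy (sub_nonneg.2 hz1))
    have h3 := mul_le_mul_of_nonneg_right (show y * (1 - z) ≤ 1 from
      mul_le_one₀ hy1 (sub_nonneg.2 hz1) (by linarith)) hC0
    have h4 := mul_nonneg hy hC0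
    linarith
  have hlX : 0 < Real.log X := Real.log_pos (Nat.one_lt_cast.2 (by omega))
  refine hsum.trans ((mul_le_mul_of_nonneg_left (Real.exp_le_exp.2 hb) (by positivity)).trans ?_)
  refine le_trans (le_of_eq ?_) (mul_le_mul_of_nonneg_right (mul_le_mul_of_nonneg_right
    (mul_le_mul_of_nonneg_right (le_add_of_nonneg_right zero_le_one)
      (Real.exp_nonneg (3 * C₁))) (Nat.cast_nonneg X)) (Real.exp_nonneg _))
  simp only [Real.exp_add]
  rw [show Real.exp (loglog X) = Real.log X from Real.exp_log hlX]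
  field_simp

/-- The solutions of `d₁ m₁ = d₂ m₂`. -/
def productPairs (P : Finset (ℕ × ℕ)) : Finset ((ℕ × ℕ) × ℕ × ℕ) :=
  (P ×ˢ P).filter fun q => q.1.1 * q.1.2 = q.2.1 * q.2.2

theorem quadOf_spec {d₁ m₁ d₂ m₂ : ℕ} (hd₁ : 0 < d₁) (hm₁ : 0 < m₁) (hd₂ : 0 < d₂)
    (hco : d₂.Coprime m₂) (heq : d₁ * m₁ = d₂ * m₂) :
    ∃ g h s t : ℕ, 0 < g ∧ 0 < h ∧ 0 < s ∧ 0 < t ∧ d₁ = g * s ∧ m₁ = h * t ∧ d₂ = g * t ∧
      m₂ = h * s ∧ quadOf ((d₁, m₁), (d₂, m₂)) = ((g, h), (s, t)) ∧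
      g.Coprime s ∧ h.Coprime t := by
  obtain ⟨g, hg⟩ : ∃ g, g = Nat.gcd d₁ d₂ := ⟨_, rfl⟩
  have hg0 : 0 < g := hg ▸ Nat.gcd_pos_of_pos_left _ hd₁
  obtain ⟨s, hs⟩ := (hg ▸ Nat.gcd_dvd_left d₁ d₂ : g ∣ d₁)
  obtain ⟨t, ht⟩ := (hg ▸ Nat.gcd_dvd_right d₁ d₂ : g ∣ d₂)
  have hst : s.Coprime t := by
    have h := Nat.coprime_div_gcd_div_gcd (m := d₁) (n := d₂) (hg ▸ hg0)
    rwa [← hg, hs, ht, Nat.mul_div_cancel_left _ hg0, Nat.mul_div_cancel_left _ hg0] at h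
  have ht0 : 0 < t := Nat.pos_of_ne_zero fun h => by rw [h, mul_zero] at ht; omega
  have hs0 : 0 < s := Nat.pos_of_ne_zero fun h => by rw [h, mul_zero] at hs; omega
  rw [hs, ht, mul_assoc, mul_assoc] at heq
  have heq' : s * m₁ = t * m₂ := Nat.eq_of_mul_eq_mul_left hg0 heq
  obtain ⟨h, hh⟩ : t ∣ m₁ := hst.symm.dvd_of_dvd_mul_left ⟨m₂, heq'⟩
  have hb2 : m₂ = h * s := by
    rw [hh, mul_left_comm] at heq'
    rw [mul_comm h s]
    exact (Nat.eq_of_mul_eq_mul_left ht0 heq').symm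
  have hh0 : 0 < h := Nat.pos_of_ne_zero fun e => by rw [e, mul_zero] at hh; omega
  refine ⟨g, h, s, t, hg0, hh0, hs0, ht0, hs, hh.trans (mul_comm _ _), ht, hb2, ?_, ?_, ?_⟩
  · simp only [quadOf]
    rw [← hg, hs, ht, Nat.mul_div_cancel_left _ hg0, Nat.mul_div_cancel_left _ hg0, hh,
      Nat.mul_div_cancel_left _ ht0]
  · rw [ht, hb2] at hco
    exact (hco.coprime_mul_right).coprime_mul_left_right
  · rw [ht, hb2] at hco
    exact ((hco.coprime_mul_left).coprime_mul_right_right).symm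

/-- What a solution gives. -/
theorem productPairs_spec {N M R : ℕ} {q : (ℕ × ℕ) × ℕ × ℕ}
    (hq : q ∈ productPairs (admissiblePairs N M R)) :
    ∃ g h s t : ℕ, 0 < g ∧ 0 < h ∧ 0 < s ∧ 0 < t ∧ q = ((g * s, h * t), (g * t, h * s)) ∧
      quadOf q = ((g, h), (s, t)) ∧ g * max s t ≤ N ∧ h * max s t ≤ M ∧
      ∀ i ∈ Icc 1 R, ((omegaBelow (scaleCut R i N) g + omegaBelow (scaleCut R i N) h +
        omegaBelow (scaleCut R i N) s + omegaBelow (scaleCut R i N) t : ℕ) : ℝ) ≤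
        critRate * ((i : ℝ) / R) * loglog N := by
  obtain ⟨⟨d₁, m₁⟩, d₂, m₂⟩ := q
  rw [productPairs, mem_filter, mem_product, mem_admissiblePairs, mem_admissiblePairs] at hq
  obtain ⟨⟨⟨⟨⟨hd₁, hd₁'⟩, hm₁, hm₁'⟩, -, hi⟩, ⟨⟨hd₂, hd₂'⟩, -, hm₂'⟩, hco, -⟩, heq⟩ := hq
  simp only at hd₁ hd₁' hm₁ hm₁' hi hd₂ hd₂' hm₂' hco heq
  obtain ⟨g, h, s, t, hg, hh, hs, ht, rfl, rfl, rfl, rfl, hQ, hgs, hht⟩ :=
    quadOf_spec hd₁ hm₁ hd₂ hco heq
  refine ⟨g, h, s, t, hg, hh, hs, ht, rfl, hQ, ?_, ?_, fun i hiR => ?_⟩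
  · rcases max_choice s t with e | e <;> rw [e] <;> assumption
  · rcases max_choice s t with e | e <;> rw [e] <;> assumption
  · have h' := hi i hiR
    rw [omegaBelow_mul hg.ne' hs.ne' hgs, omegaBelow_mul hh.ne' ht.ne' hht] at h'
    push_cast at h' ⊢
    linarith

/-- **The solutions with `max (s, t)` in `[2 ^ j, 2 ^ (j + 1))`.** -/
theorem exists_card_block_le : ∃ C : ℝ, 0 < C ∧ ∀ᶠ N : ℕ in atTop, ∀ R : ℕ, 1 ≤ R →
    ∀ M : ℕ, N * N ≤ M → ∀ j, j ≤ Nat.log 2 N →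
    (((productPairs (admissiblePairs N M R)).filter fun q =>
      Nat.log 2 (max (quadOf q).2.1 (quadOf q).2.2) = j).card : ℝ) ≤
      C * N * M * Real.exp ((-tableExponent + 2 / R) * loglog N) *
        (((j : ℝ) + 1)⁻¹ + (((Nat.log 2 N - j : ℕ) : ℝ) + 1)⁻¹) := by
  obtain ⟨CT, hCT, hT⟩ := FA.MultTableExponent.exists_sum_tilt_le
  obtain ⟨CS, hCS, hS'⟩ := exists_sum_splitTilt_le
  obtain ⟨hc, hc'⟩ := FA.MultTableExponent.critRate_bounds
  obtain ⟨y, hy⟩ : ∃ y, y = critRate / 2 := ⟨_, rfl⟩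
  have hy0 : 0 < y := by linarith
  refine ⟨16 * CT ^ 3 * CS * Real.exp 8, by positivity, ?_⟩
  filter_upwards [FA.MultTableExponent.eventually_sqrt_scale,
    tendsto_loglog.eventually_ge_atTop 0, eventually_ge_atTop 4]
    with N ⟨hs2, _, hscale⟩ hL hN R hR M hM j hj
  obtain ⟨S, hS⟩ : ∃ S, S = (productPairs (admissiblePairs N M R)).filter fun q =>
      Nat.log 2 (max (quadOf q).2.1 (quadOf q).2.2) = j := ⟨_, rfl⟩
  rw [← hS]
  obtain ⟨L, hLdef⟩ : ∃ L, L = loglog N := ⟨_, rfl⟩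
  rw [← hLdef] at hL hscale ⊢
  obtain ⟨J, hJ⟩ : ∃ J, J = Nat.log 2 N := ⟨_, rfl⟩
  rw [← hJ] at hj ⊢
  obtain ⟨W, hW⟩ : ∃ W, W = 2 ^ (j + 1) := ⟨_, rfl⟩
  obtain ⟨X, hX⟩ : ∃ X, X = 2 ^ (J - j + 1) := ⟨_, rfl⟩
  obtain ⟨Y, hY⟩ : ∃ Y, Y = M / 2 ^ j := ⟨_, rfl⟩
  have hJN : 2 ^ J ≤ N := hJ ▸ Nat.pow_log_le_self 2 (by omega)
  have hNJ : N < 2 ^ (J + 1) := hJ ▸ Nat.lt_pow_succ_log_self one_lt_two _
  have hprod : W * X = 4 * 2 ^ J := by
    rw [hW, hX, ← pow_add, show j + 1 + (J - j + 1) = J + 2 by omega, pow_add]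
    ring
  have hjN : 2 ^ j ≤ N := (Nat.pow_le_pow_right two_pos hj).trans hJN
  have hYN : N ≤ Y := hY ▸ (Nat.le_div_iff_mul_le (Nat.two_pow_pos j)).2
    ((Nat.mul_le_mul_left N hjN).trans hM)
  have hW2 : 2 ≤ W := hW ▸ Nat.le_self_pow (by omega) 2
  have hX2 : 2 ≤ X := hX ▸ Nat.le_self_pow (by omega) 2
  obtain ⟨Z, hZ⟩ : ∃ Z, Z = min W X := ⟨_, rfl⟩
  obtain ⟨B, hB⟩ : ∃ B, B = max W X := ⟨_, rfl⟩
  have hZ2 : 2 ≤ Z := hZ ▸ le_min hW2 hX2
  have hZB : Z * B = W * X := hZ ▸ hB ▸ min_mul_max W X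
  have hZN : Z ≤ N := by
    have h1 : Z * Z ≤ Z * B := Nat.mul_le_mul_left _ (hZ ▸ hB ▸ min_le_max)
    have h2 : 2 ^ (J + 1) = 2 * 2 ^ J := by rw [pow_succ, mul_comm]
    by_contra hc
    have h3 := Nat.mul_le_mul (Nat.lt_iff_add_one_le.1 (not_le.1 hc))
      (Nat.lt_iff_add_one_le.1 (not_le.1 hc))
    have h4 : 4 * N ≤ N * N := Nat.mul_le_mul_right N hN
    rw [add_mul, mul_add, one_mul, mul_one] at h3
    omega
  have hBs : Nat.sqrt N ≤ B := by
    have h1 : Z * B ≤ B * B := Nat.mul_le_mul_right _ (hZ ▸ hB ▸ min_le_max)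
    have h2 : 2 ^ (J + 1) = 2 * 2 ^ J := by rw [pow_succ, mul_comm]
    by_contra hc
    have h3 := Nat.mul_le_mul (not_le.1 hc).le (not_le.1 hc).le
    have h4 := Nat.sqrt_le N
    omega
  -- the scale of `Z`
  classical
  have hex : ∃ r, 1 ≤ r ∧ Z ≤ scaleCut R r N :=
    ⟨R, hR, hZN.trans_eq (MultTableExponent.scaleCut_self hR (show 2 ≤ N by omega)).symm⟩
  obtain ⟨r, hr⟩ : ∃ r, r = Nat.find hex := ⟨_, rfl⟩
  have hr1 : 1 ≤ r ∧ Z ≤ scaleCut R r N := hr ▸ Nat.find_spec hex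
  have hrR : r ≤ R := hr ▸ Nat.find_le
    ⟨hR, hZN.trans_eq (MultTableExponent.scaleCut_self hR (show 2 ≤ N by omega)).symm⟩
  obtain ⟨τ, hτ⟩ : ∃ τ, τ = (r : ℝ) / R := ⟨_, rfl⟩
  have hR0 : (0 : ℝ) < R := Nat.cast_pos.2 hR
  have hτ1 : τ ≤ 1 := by rw [hτ, div_le_one hR0]; exact Nat.cast_le.2 hrR
  have hτ0 : 0 ≤ τ := hτ ▸ by positivity
  have hZup : loglog Z ≤ τ * L :=
    hτ ▸ hLdef ▸ MultTableExponent.loglog_le_of_le_scaleCut hZ2 hr1.2
  have hZlow : (τ - 1 / R) * L - 1 ≤ loglog Z := by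
    rcases hr1.1.eq_or_lt with h1 | h1
    · have h2 : -1 ≤ loglog Z := FA.OmegaPhi.neg_one_le_loglog hZ2
      rw [hτ, ← h1, Nat.cast_one, sub_self, zero_mul]
      linarith
    · have hlt : ¬(1 ≤ r - 1 ∧ Z ≤ scaleCut R (r - 1) N) := Nat.find_min hex (by omega)
      rw [not_and, not_le] at hlt
      have h2 : Real.exp (Real.exp (((r - 1 : ℕ) : ℝ) / R * L)) ≤ Z := by
        have h3 : ((scaleCut R (r - 1) N : ℕ) : ℝ) + 1 ≤ Z := by
          exact_mod_cast hlt (by omega)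
        refine le_trans ?_ h3
        rw [scaleCut, hLdef]
        exact (Nat.lt_floor_add_one _).le
      have h4 := Real.log_le_log (Real.exp_pos _) h2
      rw [Real.log_exp] at h4
      have h5 := Real.log_le_log (Real.exp_pos _) h4
      rw [Real.log_exp, Nat.cast_sub hr1.1, Nat.cast_one, sub_div, ← hτ] at h5
      rw [loglog]
      linarith
  obtain ⟨w, hw⟩ : ∃ w, w = scaleCut R r N := ⟨_, rfl⟩
  have hw2 : 2 ≤ w := hw ▸ MultTableExponent.two_le_scaleCut (hLdef ▸ hL)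
  have hwN : w ≤ N := hw ▸ ((scaleCut_monotone (hLdef ▸ hL) hrR).trans
    (MultTableExponent.scaleCut_self hR (show 2 ≤ N by omega) (R := R)).le)
  have hwlow : τ * L - 2 ≤ loglog w := hw ▸ hτ ▸ hLdef ▸
    MultTableExponent.le_loglog_scaleCut (hLdef ▸ hL)
  -- the tilt
  obtain ⟨f, hf⟩ : ∃ f : ℕ → ℝ, f = fun n => tilt y (1 / 2) w n := ⟨_, rfl⟩
  obtain ⟨f', hf'⟩ : ∃ f' : ℕ → ℝ, f' = fun n => splitTilt N y (1 / 2) w n := ⟨_, rfl⟩
  have hf0 : ∀ n, 0 ≤ f n := fun n =>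
    hf ▸ MultTableExponent.tilt_nonneg hy0.le (by norm_num) w n
  have hf0' : ∀ n, 0 ≤ f' n := fun n => hf' ▸ splitTilt_nonneg hy0.le (by norm_num) N w n
  obtain ⟨E₁, hE₁⟩ : ∃ E, E = (y - 1) * (L - 2) - y / 2 * (τ * L - 2) := ⟨_, rfl⟩
  obtain ⟨E₂, hE₂⟩ : ∃ E, E = (y / 2 - 1) * loglog Z := ⟨_, rfl⟩
  have hFZ : ∑ n ∈ Icc 1 Z, f n ≤ CT * Z * Real.exp E₂ := by
    rw [hf, hE₂]
    refine (hT y (1 / 2) hy0.le (by norm_num) (by linarith) (by linarith) Z w hZ2 hw2).trans_eq ?_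
    rw [min_eq_right (hw ▸ hr1.2 : Z ≤ w)]
    ring_nf
  have hFB : ∑ n ∈ Icc 1 B, f n ≤ CT * B * Real.exp E₁ := by
    rw [hf, hE₁]
    refine (hT y (1 / 2) hy0.le (by norm_num) (by linarith) (by linarith) B w
      (hs2.trans hBs) hw2).trans ?_
    refine mul_le_mul_of_nonneg_left (Real.exp_le_exp.2 ?_) (by positivity)
    have hmin : τ * L - 2 ≤ loglog (min w B) := by
      rcases le_total w B with h | h
      · rw [min_eq_left h]
        exact hwlow
      · rw [min_eq_right h]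
        have := mul_le_of_le_one_left hL hτ1
        linarith [hscale B hBs]
    have h1 := mul_le_mul_of_nonpos_left (hscale B hBs) (show y - 1 ≤ 0 by linarith)
    have h2 := mul_le_mul_of_nonneg_left hmin (show 0 ≤ y / 2 by linarith)
    linarith
  have hFY : ∑ n ∈ Icc 1 Y, f' n ≤ CS * Y * Real.exp E₁ := by
    rw [hf', hE₁]
    refine (hS' y (1 / 2) hy0.le (by linarith) (by norm_num) (by norm_num) Y N w hw2 hwN
      hYN).trans ?_
    refine mul_le_mul_of_nonneg_left (Real.exp_le_exp.2 ?_) (by positivity)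
    rw [← hLdef]
    have h2 := mul_le_mul_of_nonneg_left hwlow (show 0 ≤ y / 2 by linarith)
    linarith
  have hE12 : E₁ ≤ E₂ + 4 := by
    rw [hE₁, hE₂]
    have h1 := mul_le_mul_of_nonpos_left hZup (show y / 2 - 1 ≤ 0 by linarith)
    have h2 := mul_nonneg (mul_nonneg (show 0 ≤ 1 - y by linarith) (show 0 ≤ 1 - τ by linarith)) hL
    linarith
  have hXW : (∑ n ∈ Icc 1 X, f n) * (∑ n ∈ Icc 1 W, f n) ^ 2 ≤
      CT ^ 3 * ((X : ℝ) * (W : ℝ) ^ 2) * Real.exp (E₁ + 2 * E₂ + 4) := by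
    have h0 : ∀ n, 0 ≤ ∑ m ∈ Icc 1 n, f m := fun n => sum_nonneg fun m _ => hf0 m
    rcases le_total W X with h | h
    · rw [hZ, hB, min_eq_left h, max_eq_right h] at *
      refine (mul_le_mul hFB (pow_le_pow_left₀ (h0 _) hFZ 2) (by positivity)
        (by positivity)).trans ?_
      refine le_trans (le_of_eq ?_) (mul_le_mul_of_nonneg_left (Real.exp_le_exp.2
        (show E₁ + 2 * E₂ ≤ E₁ + 2 * E₂ + 4 by linarith)) (by positivity))
      rw [show E₁ + 2 * E₂ = E₁ + (E₂ + E₂) by ring, Real.exp_add, Real.exp_add]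
      ring
    · rw [hZ, hB, min_eq_right h, max_eq_left h] at *
      refine (mul_le_mul hFZ (pow_le_pow_left₀ (h0 _) hFB 2) (by positivity)
        (by positivity)).trans ?_
      refine le_trans (le_of_eq ?_) (mul_le_mul_of_nonneg_left (Real.exp_le_exp.2
        (show E₂ + (E₁ + E₁) ≤ E₁ + 2 * E₂ + 4 by linarith)) (by positivity))
      rw [Real.exp_add, Real.exp_add]
      ring
  obtain ⟨F, hF⟩ : ∃ F : (ℕ × ℕ) × ℕ × ℕ → ℝ,
      F = fun u => f u.1.1 * f' u.1.2 * (f u.2.1 * f u.2.2) := ⟨_, rfl⟩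
  have hm : ∀ q ∈ S, quadOf q ∈ (Icc 1 X ×ˢ Icc 1 Y) ×ˢ (Icc 1 W ×ˢ Icc 1 W) ∧
      Real.exp (critRate * L * Real.log y + critRate * τ * L * Real.log (1 / 2)) ≤
        F (quadOf q) := by
    intro q hq
    rw [hS, mem_filter] at hq
    obtain ⟨g, h, s, t, hg, hh, hs0, ht0, -, hQ, hgN, hhM, hi⟩ := productPairs_spec hq.1
    obtain ⟨-, hlog⟩ := hq
    rw [hQ] at hlog ⊢
    simp only at hlog
    have hj1 : 2 ^ j ≤ max s t := hlog ▸ Nat.pow_log_le_self 2 (by omega)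
    have hj2 : max s t ≤ W := hW ▸ hlog ▸ (Nat.lt_pow_succ_log_self one_lt_two _).le
    have hgX : g ≤ X := by
      have h1 : g * 2 ^ j ≤ N := (Nat.mul_le_mul_left g hj1).trans hgN
      have h2 : g * 2 ^ j < X * 2 ^ j := by
        rw [hX, ← pow_add, show J - j + 1 + j = J + 1 by omega]
        exact h1.trans_lt hNJ
      exact (Nat.lt_of_mul_lt_mul_right h2).le
    have hhY : h ≤ Y := hY ▸ (Nat.le_div_iff_mul_le (Nat.two_pow_pos j)).2
      ((Nat.mul_le_mul_left h hj1).trans hhM)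
    have hsN : max s t ≤ N := (Nat.le_mul_of_pos_left _ hg).trans hgN
    refine ⟨?_, ?_⟩
    · simp only [mem_product, mem_Icc]
      exact ⟨⟨⟨hg, hgX⟩, hh, hhY⟩, ⟨hs0, (le_max_left _ _).trans hj2⟩, ht0,
        (le_max_right _ _).trans hj2⟩
    have hω := hi R (mem_Icc.2 ⟨hR, le_rfl⟩)
    rw [div_self hR0.ne', mul_one, MultTableExponent.scaleCut_self hR (show 2 ≤ N by omega),
      omegaBelow_eq_card ((Nat.le_mul_of_pos_right _ (by omega)).trans hgN),
      omegaBelow_eq_card ((le_max_left s t).trans hsN),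
      omegaBelow_eq_card ((le_max_right s t).trans hsN), ← hLdef] at hω
    have hb := hi r (mem_Icc.2 ⟨hr1.1, hrR⟩)
    rw [← hw, ← hτ, ← hLdef] at hb
    rw [hF, hf, hf']
    simp only [tilt, splitTilt]
    rw [if_neg hg.ne', if_neg hh.ne', if_neg hs0.ne', if_neg ht0.ne']
    refine le_trans ?_ (le_of_eq (show y ^ (g.primeFactors.card + omegaBelow N h +
      s.primeFactors.card + t.primeFactors.card) * (1 / 2 : ℝ) ^ (omegaBelow w g +
        omegaBelow w h + omegaBelow w s + omegaBelow w t) = _ by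
      rw [pow_add, pow_add, pow_add, pow_add, pow_add, pow_add]; ring))
    rw [← Real.exp_log (pow_pos hy0 _), ← Real.exp_log
      (pow_pos (show (0 : ℝ) < 1 / 2 by norm_num) _),
      ← Real.exp_add, Real.log_pow, Real.log_pow]
    exact Real.exp_le_exp.2 (add_le_add
      (mul_le_mul_of_nonpos_right hω (Real.log_nonpos hy0.le (by linarith)))
      (mul_le_mul_of_nonpos_right hb (Real.log_nonpos (by norm_num) (by norm_num))))
  have hinj : Set.InjOn quadOf (S : Set ((ℕ × ℕ) × ℕ × ℕ)) := fun a ha b hb e => by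
    rw [mem_coe, hS, mem_filter] at ha hb
    obtain ⟨g, h, s, t, -, -, -, -, e₁, hQ₁, -⟩ := productPairs_spec ha.1
    obtain ⟨g', h', s', t', -, -, -, -, e₂, hQ₂, -⟩ := productPairs_spec hb.1
    rw [hQ₁, hQ₂] at e
    simp only [Prod.mk.injEq] at e
    obtain ⟨⟨rfl, rfl⟩, rfl, rfl⟩ := e
    rw [e₁, e₂]
  have hcount : (S.card : ℝ) * Real.exp (critRate * L * Real.log y +
      critRate * τ * L * Real.log (1 / 2)) ≤
      (∑ n ∈ Icc 1 Y, f' n) * ((∑ n ∈ Icc 1 X, f n) * (∑ n ∈ Icc 1 W, f n) ^ 2) := by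
    rw [← nsmul_eq_mul]
    refine (card_nsmul_le_sum _ _ _ fun q hq => (hm q hq).2).trans ?_
    rw [← sum_image hinj]
    refine (sum_le_sum_of_subset_of_nonneg (fun u hu => ?_) fun u _ _ => ?_).trans_eq
      (?_ : ∑ u ∈ (Icc 1 X ×ˢ Icc 1 Y) ×ˢ (Icc 1 W ×ˢ Icc 1 W), F u = _)
    · obtain ⟨q, hq, rfl⟩ := mem_image.1 hu
      exact (hm q hq).1
    · rw [hF]
      exact mul_nonneg (mul_nonneg (hf0 _) (hf0' _)) (mul_nonneg (hf0 _) (hf0 _))
    · rw [hF, sum_product, sq]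
      simp only [← mul_sum, ← sum_mul]
      rw [sum_product, sum_product]
      simp only [← mul_sum, ← sum_mul]
      ring
  obtain ⟨l, hl⟩ : ∃ l, l = min j (J - j) := ⟨_, rfl⟩
  have hZl : Z = 2 ^ (l + 1) := by
    rw [hZ, hW, hX, hl]
    rcases le_total j (J - j) with h | h
    · rw [min_eq_left h, min_eq_left (Nat.pow_le_pow_right two_pos (by omega))]
    · rw [min_eq_right h, min_eq_right (Nat.pow_le_pow_right two_pos (by omega))]
  have hexpZ : Real.exp (-(τ * L)) ≤ 2 * (((j : ℝ) + 1)⁻¹ + (((J - j : ℕ) : ℝ) + 1)⁻¹) := by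
    have h1 : Real.log Z ≤ Real.exp (τ * L) := by
      rw [← Real.exp_log (Real.log_pos (Nat.one_lt_cast.2 (by omega : 1 < Z)))]
      exact Real.exp_le_exp.2 hZup
    rw [hZl, Nat.cast_pow, Nat.cast_ofNat, Real.log_pow] at h1
    push_cast at h1
    have h2 : Real.exp (-(τ * L)) ≤ 2 * ((l : ℝ) + 1)⁻¹ := by
      rw [Real.exp_neg, ← div_eq_mul_inv, inv_le_iff_one_le_mul₀ (Real.exp_pos _),
        div_mul_eq_mul_div, one_le_div (by positivity)]
      have h2 := mul_le_mul_of_nonneg_left Real.log_two_gt_d9.le (show (0 : ℝ) ≤ (l : ℝ) + 1 by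
        positivity)
      linarith [Real.exp_nonneg (τ * L)]
    refine h2.trans (mul_le_mul_of_nonneg_left ?_ two_pos.le)
    rcases le_total j (J - j) with h | h
    · rw [hl, min_eq_left h]
      exact le_add_of_nonneg_right (by positivity)
    · rw [hl, min_eq_right h]
      exact le_add_of_nonneg_left (by positivity)
  rw [← le_div_iff₀ (Real.exp_pos _), div_eq_mul_inv, ← Real.exp_neg] at hcount
  refine (hcount.trans (mul_le_mul_of_nonneg_right (mul_le_mul hFY hXW (mul_nonneg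
    (sum_nonneg fun n _ => hf0 n) (sq_nonneg _)) (by positivity)) (Real.exp_nonneg _))).trans ?_
  have hkey : E₁ + (E₁ + 2 * E₂ + 4) +
      -(critRate * L * Real.log y + critRate * τ * L * Real.log (1 / 2)) ≤
      8 + (-tableExponent + 2 / R) * L + -(τ * L) := by
    have h1 := mul_le_mul_of_nonpos_left hZlow (show y - 2 ≤ 0 by linarith)
    have h3 : (-(critRate * Real.log (critRate / 2)) + (critRate - 2)) * L =
        -tableExponent * L := by rw [MultTableExponent.exponent_half]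
    have h4 : critRate * Real.log 2 * (τ * L) = τ * L := by
      rw [MultTableExponent.critRate_mul_log_two, one_mul]
    have h5 : 0 ≤ y * (1 / (R : ℝ) * L) := by positivity
    have h6 : 2 / (R : ℝ) * L = 2 * (1 / (R : ℝ) * L) := by ring
    rw [hE₁, hE₂, one_div (2 : ℝ), Real.log_inv, hy]
    rw [hy] at h1 h5
    linarith
  have hYWX : (Y : ℝ) * ((X : ℝ) * (W : ℝ) ^ 2) ≤ 8 * (N * M) := by
    have h1 : Y * W ≤ 2 * M := by
      rw [hY, hW, pow_succ, ← mul_assoc, mul_comm 2 M]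
      exact Nat.mul_le_mul_right 2 (Nat.div_mul_le_self M _)
    have h2 : (W * X) * (Y * W) ≤ (4 * N) * (2 * M) :=
      Nat.mul_le_mul (hprod.le.trans (Nat.mul_le_mul_left 4 hJN)) h1
    have h3 : ((W * X * (Y * W) : ℕ) : ℝ) ≤ ((4 * N * (2 * M) : ℕ) : ℝ) := Nat.cast_le.2 h2
    push_cast at h3
    linarith
  refine le_trans (le_of_eq (?_ : _ = CS * CT ^ 3 * ((Y : ℝ) * ((X : ℝ) * (W : ℝ) ^ 2)) *
    Real.exp (E₁ + (E₁ + 2 * E₂ + 4) +
      -(critRate * L * Real.log y + critRate * τ * L * Real.log (1 / 2))))) ?_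
  · simp only [Real.exp_add]
    ring
  refine (mul_le_mul (mul_le_mul_of_nonneg_left hYWX (by positivity)) (Real.exp_le_exp.2 hkey)
    (Real.exp_nonneg _) (by positivity)).trans ?_
  rw [Real.exp_add, Real.exp_add]
  refine le_trans (le_of_eq ?_) ((mul_le_mul_of_nonneg_left hexpZ (show 0 ≤ CS * CT ^ 3 *
    (8 * ((N : ℝ) * M)) * (Real.exp 8 * Real.exp ((-tableExponent + 2 / R) * L)) by
      positivity)).trans (le_of_eq ?_))
  · ring
  · ring

/-- **The energy.** -/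
theorem exists_energy_le : ∃ C : ℝ, 0 < C ∧ ∀ R : ℕ, 1 ≤ R → ∀ᶠ N : ℕ in atTop,
    ∀ M : ℕ, N * N ≤ M → ((productPairs (admissiblePairs N M R)).card : ℝ) ≤
      C * N * M * Real.exp ((-tableExponent + 3 / R) * loglog N) := by
  obtain ⟨C, hC, hblock⟩ := exists_card_block_le
  refine ⟨C, hC, fun R hR => ?_⟩
  have hR0 : (0 : ℝ) < R := Nat.cast_pos.2 hR
  filter_upwards [hblock, eventually_scale_facts (K := 1) hR one_pos, eventually_ge_atTop 16]
    with N hblock ⟨hL, hexpR, _⟩ hN M hM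
  obtain ⟨L, hLdef⟩ : ∃ L, L = loglog N := ⟨_, rfl⟩
  rw [← hLdef] at hL hexpR hblock ⊢
  obtain ⟨J, hJ⟩ : ∃ J, J = Nat.log 2 N := ⟨_, rfl⟩
  rw [card_eq_sum_card_fiberwise (f := fun q : (ℕ × ℕ) × ℕ × ℕ =>
    Nat.log 2 (max (quadOf q).2.1 (quadOf q).2.2)) (t := range (J + 1)) fun q hq => ?_,
    Nat.cast_sum]
  · refine (sum_le_sum (g := fun j : ℕ => C * N * M * Real.exp ((-tableExponent + 2 / R) * L) *
      (((j : ℝ) + 1)⁻¹ + (((J - j : ℕ) : ℝ) + 1)⁻¹)) fun j hj => hJ ▸ hblock R hR M hM j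
        (hJ ▸ Nat.lt_succ_iff.1 (mem_range.1 hj))).trans ?_
    rw [← mul_sum, sum_add_distrib, show ∑ j ∈ range (J + 1), (((J - j : ℕ) : ℝ) + 1)⁻¹ =
      ∑ j ∈ range (J + 1), ((j : ℝ) + 1)⁻¹ from
        sum_range_reflect (fun j : ℕ => ((j : ℝ) + 1)⁻¹) (J + 1), ← two_mul,
      show (-tableExponent + 3 / R) * L = (-tableExponent + 2 / R) * L + L / R by ring,
      Real.exp_add, ← mul_assoc (C * N * M)]
    refine mul_le_mul_of_nonneg_left ?_ (by positivity)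
    have hh : ∑ j ∈ range (J + 1), ((j : ℝ) + 1)⁻¹ ≤ 1 + Real.log (J + 1 : ℕ) := by
      refine le_trans (le_of_eq ?_) (harmonic_le_one_add_log (J + 1))
      simp [harmonic]
    have hlN : 1 ≤ Real.log N := by
      have := Real.log_le_log (show (0 : ℝ) < 16 by norm_num) (Nat.ofNat_le_cast.2 hN)
      rw [show (16 : ℝ) = 2 ^ 4 by norm_num, Real.log_pow] at this
      push_cast at this
      linarith [Real.log_two_gt_d9]
    have h1 : ((J + 1 : ℕ) : ℝ) ≤ 3 * Real.log N := by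
      have h := Real.log_le_log (by positivity)
        (Nat.cast_le.2 (Nat.pow_log_le_self 2 (show N ≠ 0 by omega)) :
          ((2 ^ Nat.log 2 N : ℕ) : ℝ) ≤ N)
      rw [← hJ, Nat.cast_pow, Nat.cast_ofNat, Real.log_pow] at h
      have h2 := mul_le_mul_of_nonneg_left Real.log_two_gt_d9.le (Nat.cast_nonneg (α := ℝ) J)
      push_cast
      linarith
    have h2 := Real.log_le_log (by positivity) h1
    rw [Real.log_mul (by norm_num) (by linarith), show Real.log (Real.log (N : ℝ)) = L from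
      hLdef.symm] at h2
    have h3 : Real.log 3 ≤ 2 := (Real.log_le_sub_one_of_pos (by norm_num)).trans (by norm_num)
    linarith
  · obtain ⟨g, h, s, t, hg, -, -, -, -, hQ, hgN, -⟩ := productPairs_spec hq
    rw [mem_coe, mem_range, Nat.lt_succ_iff, hJ]
    simp only [hQ]
    exact Nat.log_mono_right ((Nat.le_mul_of_pos_left _ hg).trans hgN)

end FA.DivisorInterval

end
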