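import Fermat.Agent.SetsOfMultiples.Intervals
import Fermat.Agent.MultTableExponent.Good

/-!
# Few integers have a divisor in `(T, 2 T]`

An integer `n = d m` with `T < d ≤ 2 T` has more than `c log log T` prime factors `≤ 2 T`, or the
pair `(d, m)`, made coprime by its common divisor, has at most so many together. The density of each
kind is `≪ 1 / (log T) ^ δ`.
-/

set_option autoImplicit false

noncomputable section

namespace FA.DivisorInterval

open Finset Filter
open FA.ErdosKac (loglog tendsto_loglog)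
open FA.MultTableExponent (critRate tableExponent omegaBelow omegaBelow_mul omegaBelow_mono tilt)
open FA.SetsOfMultiples (countUpTo multiplesOf finiteDensity)
open scoped Topology

/-- The density of the integers with a divisor in `(T, 2 T]`. -/
def intervalDensity (T : ℕ) : ℝ := finiteDensity (Ioc T (2 * T))

theorem intervalDensity_nonneg (T : ℕ) : 0 ≤ intervalDensity T :=
  SetsOfMultiples.finiteDensity_nonneg _

theorem tendsto_countUpTo_div (T : ℕ) :
    Tendsto (fun X : ℕ => (countUpTo (multiplesOf ↑(Ioc T (2 * T))) X : ℝ) / X) atTop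
      (𝓝 (intervalDensity T)) := by
  refine tendsto_iff_norm_sub_tendsto_zero.2 (squeeze_zero' (Eventually.of_forall fun X =>
    norm_nonneg _) ?_ ((tendsto_const_nhds (x := ((∏ a ∈ Ioc T (2 * T), a : ℕ) : ℝ))).div_atTop
      (tendsto_natCast_atTop_atTop (R := ℝ))))
  filter_upwards [eventually_ge_atTop 1] with X hX
  have hX0 : (0 : ℝ) < X := Nat.cast_pos.2 hX
  rw [Real.norm_eq_abs, div_sub' hX0.ne', abs_div, abs_of_pos hX0, mul_comm (X : ℝ)]
  exact div_le_div_of_nonneg_right (SetsOfMultiples.abs_countUpTo_sub_le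
    (fun a ha => Nat.zero_lt_of_lt (mem_Ioc.1 ha).1) X) hX0.le

/-- The pairs in `[1, U] × [1, V]` with `ω u + ω_N v ≤ K`. -/
def lowSplit (N : ℕ) (K : ℝ) (U V : ℕ) : Finset (ℕ × ℕ) :=
  (Icc 1 U ×ˢ Icc 1 V).filter fun p =>
    ((p.1.primeFactors.card + omegaBelow N p.2 : ℕ) : ℝ) ≤ K

theorem mem_lowSplit {N U V u v : ℕ} {K : ℝ} : (u, v) ∈ lowSplit N K U V ↔
    (1 ≤ u ∧ u ≤ U) ∧ (1 ≤ v ∧ v ≤ V) ∧ ((u.primeFactors.card + omegaBelow N v : ℕ) : ℝ) ≤ K := by
  simp only [lowSplit, mem_filter, mem_product, mem_Icc, and_assoc]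

/-- Their number for `U = N / g`, `V = M / g`. -/
theorem exists_sum_lowSplit_le : ∃ C : ℝ, 0 < C ∧ ∀ᶠ N : ℕ in atTop, ∀ M : ℕ, N * N ≤ M →
    ∑ g ∈ Icc 1 M, ((lowSplit N (critRate * loglog N) (N / g) (M / g)).card : ℝ) ≤
      C * N * M * Real.exp (-tableExponent * loglog N) := by
  obtain ⟨CP, hCP, hP⟩ := MultTableExponent.exists_sum_pow_le
  obtain ⟨CT, hCT, hT⟩ := MultTableExponent.exists_sum_tilt_le
  obtain ⟨y, hy⟩ : ∃ y, y = critRate / 2 := ⟨_, rfl⟩
  obtain ⟨hc, hc'⟩ := MultTableExponent.critRate_bounds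
  have hy0 : 0 < y := by linarith
  have hy1 : y ≤ 1 := by linarith
  refine ⟨2 * (CP * CT * Real.exp 4) + 4, by positivity, ?_⟩
  filter_upwards [MultTableExponent.eventually_sqrt_scale,
    tendsto_loglog.eventually_ge_atTop 0, eventually_ge_atTop 4]
    with N ⟨hs, hsmall, hscale⟩ hL hN M hM
  obtain ⟨L, hLdef⟩ : ∃ L, L = loglog N := ⟨_, rfl⟩
  rw [← hLdef] at hL hscale hsmall ⊢
  have hN0 : (0 : ℝ) < N := Nat.cast_pos.2 (by omega)
  have hbig : ∀ g, 1 ≤ g → g ≤ Nat.sqrt N →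
      ((lowSplit N (critRate * L) (N / g) (M / g)).card : ℝ) ≤
        CP * CT * Real.exp 4 * N * M * Real.exp (-tableExponent * L) * ((g : ℝ) ^ 2)⁻¹ := by
    intro g hg hgs
    have hU : Nat.sqrt N ≤ N / g := (Nat.le_div_iff_mul_le hg).2
      ((Nat.mul_le_mul_left _ hgs).trans (Nat.sqrt_le N))
    have hV : N ≤ M / g := (Nat.le_div_iff_mul_le hg).2
      ((Nat.mul_le_mul_left N (hgs.trans (Nat.sqrt_le_self N))).trans hM)
    have hUN : ((N / g : ℕ) : ℝ) ≤ N * (g : ℝ)⁻¹ := Nat.cast_div_le.trans_eq (div_eq_mul_inv _ _)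
    have hVM : ((M / g : ℕ) : ℝ) ≤ M * (g : ℝ)⁻¹ := Nat.cast_div_le.trans_eq (div_eq_mul_inv _ _)
    have h1 := hP y hy0.le (by linarith) (N / g) (hs.trans hU)
    have h2 : Real.exp ((y - 1) * loglog (N / g : ℕ)) ≤ Real.exp ((y - 1) * (L - 2)) :=
      Real.exp_le_exp.2 (mul_le_mul_of_nonpos_left (hscale _ hU) (by linarith))
    have h1' := h1.trans (mul_le_mul (mul_le_mul_of_nonneg_left hUN hCP.le) h2 (Real.exp_nonneg _)
      (by positivity))
    have h3 := hT 1 y zero_le_one hy0.le one_le_two (by linarith) (M / g) N (by omega) (by omega)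
    rw [min_eq_left hV, sub_self, zero_mul, zero_add, one_mul, ← hLdef] at h3
    have h3' := h3.trans (mul_le_mul_of_nonneg_right
      (mul_le_mul_of_nonneg_left hVM hCT.le) (Real.exp_nonneg _))
    have hcount : ((lowSplit N (critRate * L) (N / g) (M / g)).card : ℝ) *
        Real.exp (critRate * L * Real.log y) ≤
        (∑ n ∈ Icc 1 (N / g), y ^ n.primeFactors.card) * ∑ n ∈ Icc 1 (M / g), tilt 1 y N n := by
      rw [← nsmul_eq_mul, sum_mul_sum, ← sum_product']
      refine (card_nsmul_le_sum _ _ _ fun p hp => ?_).trans (sum_le_sum_of_subset_of_nonneg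
        (filter_subset _ _) fun p _ _ => mul_nonneg (by positivity)
          (MultTableExponent.tilt_nonneg zero_le_one hy0.le _ _))
      obtain ⟨-, hv, hω⟩ := mem_lowSplit.1 hp
      rw [tilt, if_neg (by omega), one_pow, one_mul, ← pow_add, ← Real.exp_log (pow_pos hy0 _),
        Real.log_pow]
      exact Real.exp_le_exp.2 (mul_le_mul_of_nonpos_right hω (Real.log_nonpos hy0.le hy1))
    rw [← le_div_iff₀ (Real.exp_pos _), div_eq_mul_inv, ← Real.exp_neg] at hcount
    refine (hcount.trans (mul_le_mul_of_nonneg_right (mul_le_mul h1' h3'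
      (sum_nonneg fun n _ => MultTableExponent.tilt_nonneg zero_le_one hy0.le _ _) (by positivity))
      (Real.exp_nonneg _))).trans ?_
    rw [show CP * (N * (g : ℝ)⁻¹) * Real.exp ((y - 1) * (L - 2)) *
        (CT * (M * (g : ℝ)⁻¹) * Real.exp ((y - 1) * L)) *
          Real.exp (-(critRate * L * Real.log y)) =
      CP * CT * N * M * ((g : ℝ) ^ 2)⁻¹ * (Real.exp ((y - 1) * (L - 2)) * Real.exp ((y - 1) * L) *
        Real.exp (-(critRate * L * Real.log y))) by ring, ← Real.exp_add, ← Real.exp_add,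
      show CP * CT * Real.exp 4 * N * M * Real.exp (-tableExponent * L) * ((g : ℝ) ^ 2)⁻¹ =
        CP * CT * N * M * ((g : ℝ) ^ 2)⁻¹ * (Real.exp 4 * Real.exp (-tableExponent * L)) by ring,
      ← Real.exp_add]
    refine mul_le_mul_of_nonneg_left (Real.exp_le_exp.2 ?_) (by positivity)
    rw [← MultTableExponent.exponent_half, hy]
    linarith
  have hsm : ∀ g : ℕ, ((lowSplit N (critRate * L) (N / g) (M / g)).card : ℝ) ≤
      N * M * ((g : ℝ) ^ 2)⁻¹ := fun g => by
    refine (Nat.cast_le.2 (card_filter_le _ _)).trans ?_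
    rw [card_product, Nat.card_Icc, Nat.card_Icc, Nat.add_sub_cancel, Nat.add_sub_cancel,
      Nat.cast_mul]
    refine (mul_le_mul Nat.cast_div_le Nat.cast_div_le (by positivity) (by positivity)).trans ?_
    exact le_of_eq (by ring)
  rw [← sum_filter_add_sum_filter_not (Icc 1 M) (fun g => g ≤ Nat.sqrt N)]
  refine (add_le_add ((sum_le_sum (g := fun g : ℕ =>
      CP * CT * Real.exp 4 * N * M * Real.exp (-tableExponent * L) * ((g : ℝ) ^ 2)⁻¹)
      fun g hg => hbig g (mem_Icc.1 (mem_filter.1 hg).1).1 (mem_filter.1 hg).2).trans_eq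
        (mul_sum _ _ _).symm)
    ((sum_le_sum fun g _ => hsm g).trans_eq (mul_sum _ _ _).symm)).trans ?_
  have hA : ∑ g ∈ (Icc 1 M).filter (fun g => g ≤ Nat.sqrt N), ((g : ℝ) ^ 2)⁻¹ ≤ 2 := by
    refine (sum_le_sum_of_subset_of_nonneg (t := Ioo 0 (M + 1)) (fun g hg => mem_Ioo.2
      ⟨(mem_Icc.1 (mem_filter.1 hg).1).1, Nat.lt_succ_of_le (mem_Icc.1 (mem_filter.1 hg).1).2⟩)
      fun _ _ _ => by positivity).trans ((sum_Ioo_inv_sq_le 0 (M + 1)).trans ?_)
    norm_num
  have hB : ∑ g ∈ (Icc 1 M).filter (fun g => ¬g ≤ Nat.sqrt N), ((g : ℝ) ^ 2)⁻¹ ≤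
      4 * Real.exp (-tableExponent * L) := by
    refine (sum_le_sum_of_subset_of_nonneg (t := Ioo (Nat.sqrt N) (M + 1)) (fun g hg =>
      mem_Ioo.2 ⟨not_le.1 (mem_filter.1 hg).2,
        Nat.lt_succ_of_le (mem_Icc.1 (mem_filter.1 hg).1).2⟩)
      fun _ _ _ => by positivity).trans ((sum_Ioo_inv_sq_le _ (M + 1)).trans ?_)
    have h : Real.sqrt N ≤ (Nat.sqrt N : ℝ) + 1 := Real.real_sqrt_le_nat_sqrt_succ
    have h' : Real.exp (-2 * L) ≤ Real.exp (-tableExponent * L) := by
      refine Real.exp_le_exp.2 ?_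
      have := mul_le_mul_of_nonneg_right
        (show tableExponent ≤ 2 by linarith [MultTableExponent.tableExponent_lt]) hL
      linarith
    calc (2 : ℝ) / ((Nat.sqrt N : ℝ) + 1) ≤ 2 / Real.sqrt N :=
          div_le_div_of_nonneg_left two_pos.le (Real.sqrt_pos.2 hN0) h
      _ = 2 * (Real.sqrt N)⁻¹ := div_eq_mul_inv _ _
      _ ≤ 4 * Real.exp (-tableExponent * L) := by linarith [Real.exp_nonneg (-2 * L)]
  have h1 := mul_le_mul_of_nonneg_left hA
    (show 0 ≤ CP * CT * Real.exp 4 * N * M * Real.exp (-tableExponent * L) by positivity)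
  have h2 := mul_le_mul_of_nonneg_left hB (show 0 ≤ (N : ℝ) * M by positivity)
  linarith

/-- **The upper bound.** -/
theorem exists_intervalDensity_le : ∃ C : ℝ, 0 < C ∧ ∀ᶠ T : ℕ in atTop,
    intervalDensity T ≤ C * Real.exp (-tableExponent * loglog (2 * T : ℕ)) := by
  classical
  obtain ⟨CT, hCT, hT⟩ := MultTableExponent.exists_sum_tilt_le
  obtain ⟨CL, hCL, hlow⟩ := exists_sum_lowSplit_le
  obtain ⟨hc, hc'⟩ := MultTableExponent.critRate_bounds
  have hc0 : 0 < critRate := by linarith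
  have h2 : Tendsto (fun T : ℕ => 2 * T) atTop atTop := tendsto_id.const_mul_atTop' two_pos
  refine ⟨CT + 2 * CL, by positivity, ?_⟩
  filter_upwards [h2.eventually hlow, eventually_ge_atTop 2] with T hlow hT2
  obtain ⟨N, hN⟩ : ∃ N, N = 2 * T := ⟨_, rfl⟩
  rw [← hN] at hlow ⊢
  obtain ⟨L, hLdef⟩ : ∃ L, L = loglog N := ⟨_, rfl⟩
  rw [← hLdef] at hlow ⊢
  obtain ⟨E, hE⟩ : ∃ E, E = Real.exp (-tableExponent * L) := ⟨_, rfl⟩
  rw [← hE] at hlow ⊢
  refine le_of_tendsto (tendsto_countUpTo_div T) ?_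
  filter_upwards [eventually_ge_atTop (N * N * N)] with X hX
  have hNX : N ≤ X := le_trans (Nat.le_mul_of_pos_left N (Nat.mul_pos (by omega) (by omega))) hX
  obtain ⟨M, hM⟩ : ∃ M, M = X / T := ⟨_, rfl⟩
  have hNM : N * N ≤ M := by
    rw [hM, Nat.le_div_iff_mul_le (by omega)]
    exact (Nat.mul_le_mul_left _ (by omega)).trans hX
  have hMN : N ≤ M := (Nat.le_mul_of_pos_left N (by omega)).trans hNM
  obtain ⟨A, hA⟩ : ∃ A, A = (Icc 1 X).filter fun n : ℕ =>
      critRate * L ≤ (omegaBelow N n : ℝ) := ⟨_, rfl⟩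
  obtain ⟨B, hB⟩ : ∃ B, B = (Icc 1 N ×ˢ Icc 1 M).filter fun z =>
      (omegaBelow N (z.1 * z.2) : ℝ) ≤ critRate * L := ⟨_, rfl⟩
  have hsub : (Icc 1 X).filter (· ∈ multiplesOf ↑(Ioc T (2 * T))) ⊆
      A ∪ B.image fun z => z.1 * z.2 := fun n hn => by
    obtain ⟨hn, d, hd, m, rfl⟩ := mem_filter.1 hn
    obtain ⟨hd1, hd2⟩ := mem_Ioc.1 (mem_coe.1 hd)
    obtain ⟨hn1, hnX⟩ := mem_Icc.1 hn
    rw [mem_union]
    rcases le_total (critRate * L) (omegaBelow N (d * m) : ℝ) with h | h
    · exact Or.inl (hA ▸ mem_filter.2 ⟨hn, h⟩)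
    · refine Or.inr (mem_image.2 ⟨(d, m), hB ▸ mem_filter.2 ⟨?_, h⟩, rfl⟩)
      simp only [mem_product, mem_Icc]
      refine ⟨⟨by omega, by omega⟩, Nat.pos_of_ne_zero fun e => by simp [e] at hn1, ?_⟩
      rw [hM, Nat.le_div_iff_mul_le (by omega), mul_comm]
      exact (Nat.mul_le_mul_right m hd1.le).trans hnX
  have hAle : (A.card : ℝ) ≤ CT * E * X := by
    have h1 := hT 1 critRate zero_le_one hc0.le one_le_two (by linarith) X N (by omega) (by omega)
    have h2 : (A.card : ℝ) * Real.exp (critRate * L * Real.log critRate) ≤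
        ∑ n ∈ Icc 1 X, tilt 1 critRate N n := by
      rw [← nsmul_eq_mul]
      refine (card_nsmul_le_sum _ _ _ fun n hn => ?_).trans
        (sum_le_sum_of_subset_of_nonneg (hA ▸ filter_subset _ _) fun n _ _ =>
          MultTableExponent.tilt_nonneg zero_le_one hc0.le _ _)
      rw [hA, mem_filter, mem_Icc] at hn
      rw [tilt, if_neg (by omega), one_pow, one_mul, ← Real.exp_log (pow_pos hc0 _), Real.log_pow]
      exact Real.exp_le_exp.2 (mul_le_mul_of_nonneg_right hn.2 (Real.log_nonneg (by linarith)))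
    rw [min_eq_left hNX, sub_self, zero_mul, zero_add, one_mul, ← hLdef] at h1
    rw [← le_div_iff₀ (Real.exp_pos _), div_eq_mul_inv, ← Real.exp_neg] at h2
    refine h2.trans ((mul_le_mul_of_nonneg_right h1 (Real.exp_nonneg _)).trans (le_of_eq ?_))
    rw [mul_assoc, ← Real.exp_add, hE, mul_right_comm CT, MultTableExponent.tableExponent_eq]
    ring_nf
  have hBle : (B.card : ℝ) ≤ 2 * CL * E * X := by
    have h1 := MultTableExponent.card_le_sum_of_gcd (S := B)
      (T := fun g => lowSplit N (critRate * L) (N / g) (M / g))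
      (hB ▸ (filter_subset _ _).trans (product_subset_product (Icc_subset_Icc le_rfl hMN)
        Subset.rfl)) fun a b g u v hab hg ha hb huv => by
        rw [hB, mem_filter, mem_product, mem_Icc, mem_Icc] at hab
        obtain ⟨⟨⟨ha1, haN⟩, hb1, hbM⟩, hω⟩ := hab
        simp only at ha1 haN hb1 hbM hω
        have hu1 : 1 ≤ u := Nat.pos_of_ne_zero fun h => by rw [h, mul_zero] at ha; omega
        have hv1 : 1 ≤ v := Nat.pos_of_ne_zero fun h => by rw [h, mul_zero] at hb; omega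
        refine mem_lowSplit.2 ⟨⟨hu1, ?_⟩, ⟨hv1, ?_⟩, le_trans (Nat.cast_le.2 ?_) hω⟩
        · rw [Nat.le_div_iff_mul_le hg, mul_comm]
          exact ha ▸ haN
        · rw [Nat.le_div_iff_mul_le hg, mul_comm]
          exact hb ▸ hbM
        · have hu : u.primeFactors.card = omegaBelow N u :=
            (congrArg card (filter_true_of_mem fun p hp => (Nat.le_of_mem_primeFactors hp).trans
              ((Nat.le_mul_of_pos_left u hg).trans (ha ▸ haN)))).symm
          rw [hu, ← omegaBelow_mul (by omega) (by omega) huv]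
          exact omegaBelow_mono (mul_dvd_mul (ha ▸ dvd_mul_left u g) (hb ▸ dvd_mul_left v g))
            (Nat.mul_ne_zero (by omega) (by omega))
    refine (Nat.cast_le.2 h1).trans ?_
    rw [Nat.cast_sum]
    refine (hlow M hNM).trans ?_
    have h2 : (N : ℝ) * M ≤ 2 * X := by
      have : N * M ≤ 2 * X := by
        rw [hN, mul_assoc, hM]
        exact Nat.mul_le_mul_left 2 (Nat.mul_div_le X T)
      exact_mod_cast this
    have h3 := mul_le_mul_of_nonneg_left h2 (show 0 ≤ CL * E from mul_nonneg hCL.le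
      (hE ▸ Real.exp_nonneg _))
    linarith
  rw [div_le_iff₀ (by exact_mod_cast (show 0 < X by omega))]
  refine (Nat.cast_le.2 ((card_le_card hsub).trans ((card_union_le _ _).trans
    (Nat.add_le_add le_rfl card_image_le)))).trans ?_
  rw [Nat.cast_add]
  linarith

end FA.DivisorInterval

end
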