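import Fermat.Agent.DivisorInterval.Energy
import Fermat.Agent.DivisorInterval.Upper

/-!
# The exponent of the integers with a divisor in `(T, 2 T]`

Erdős (1960), Tenenbaum (1975): the density of these integers is `1 / (log T) ^ (δ + o (1))`. The
lower bound is the inequality of Cauchy and Schwarz for the products of the admissible pairs.
-/

set_option autoImplicit false

noncomputable section

namespace FA.DivisorInterval

open Finset Filter
open FA.ErdosKac (loglog tendsto_loglog)
open FA.MultTableExponent (tableExponent)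
open FA.SetsOfMultiples (countUpTo multiplesOf)
open scoped Topology

/-- **The lower bound.** -/
theorem eventually_le_intervalDensity {η : ℝ} (hη : 0 < η) : ∀ᶠ T : ℕ in atTop,
    Real.exp (-(tableExponent + η) * loglog (2 * T : ℕ)) ≤ intervalDensity T := by
  classical
  obtain ⟨ε, hε⟩ : ∃ ε, ε = η / 4 := ⟨_, rfl⟩
  have hε0 : 0 < ε := by linarith
  obtain ⟨R, hR⟩ : ∃ R : ℕ, R = ⌈16 / ε⌉₊ + 3 := ⟨_, rfl⟩
  have hεR : 16 ≤ ε * R := by
    rw [← div_le_iff₀' hε0, hR]
    exact (Nat.le_ceil _).trans (Nat.cast_le.2 (by omega))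
  have hR0 : (0 : ℝ) < R := Nat.cast_pos.2 (by omega)
  obtain ⟨CE, hCE, henergy⟩ := exists_energy_le
  have h2 : Tendsto (fun T : ℕ => 2 * T) atTop atTop := tendsto_id.const_mul_atTop' two_pos
  filter_upwards [eventually_many_upperPairs hε0 (R := R) (by omega) hεR,
    h2.eventually (henergy R (by omega)),
    h2.eventually (tendsto_loglog.eventually_ge_atTop 0),
    h2.eventually ((Real.tendsto_exp_atTop.comp
      (tendsto_loglog.const_mul_atTop hε0)).eventually_ge_atTop (4 * CE)),
    eventually_ge_atTop 1] with T hmany hE hL hbig hT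
  simp only [Function.comp_apply] at hbig
  obtain ⟨N, hN⟩ : ∃ N, N = 2 * T := ⟨_, rfl⟩
  rw [← hN] at hE hL hbig hmany ⊢
  obtain ⟨L, hLdef⟩ : ∃ L, L = loglog N := ⟨_, rfl⟩
  rw [← hLdef] at hE hL hbig hmany ⊢
  refine ge_of_tendsto ((tendsto_countUpTo_div T).comp
    (tendsto_id.const_mul_atTop' (show 0 < N by omega))) ?_
  filter_upwards [hmany, eventually_ge_atTop (N * N), eventually_ge_atTop 1] with M hP hM hM1
  simp only [Function.comp_apply, id]
  obtain ⟨P, hPdef⟩ : ∃ P, P = upperPairs T M R := ⟨_, rfl⟩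
  rw [← hPdef] at hP
  obtain ⟨Q, hQ⟩ : ∃ Q, Q = countUpTo (multiplesOf ↑(Ioc T (2 * T))) (N * M) := ⟨_, rfl⟩
  rw [← hQ]
  have hsubP : P ⊆ admissiblePairs N M R := by
    rw [hPdef, hN]
    exact filter_subset _ _
  have himg : (P.image fun z => z.1 * z.2).card ≤ Q := by
    rw [hQ, countUpTo]
    refine card_le_card fun n hn => ?_
    obtain ⟨z, hz, rfl⟩ := mem_image.1 hn
    obtain ⟨⟨⟨h1, h2⟩, h3, h4⟩, -⟩ := mem_admissiblePairs.1 (hsubP hz)
    rw [hPdef, upperPairs, mem_filter] at hz
    refine mem_filter.2 ⟨mem_Icc.2 ⟨Nat.mul_pos h1 h3, Nat.mul_le_mul h2 h4⟩, z.1, ?_,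
      dvd_mul_right _ _⟩
    rw [mem_coe, mem_Ioc, ← hN]
    exact ⟨hz.2, h2⟩
  have hen : Korobov.energy P (fun z => z.1 * z.2) ≤
      (productPairs (admissiblePairs N M R)).card :=
    Korobov.energy_mono hsubP _
  have h1 : (P.card : ℝ) ^ 2 ≤ (Q : ℝ) * (productPairs (admissiblePairs N M R)).card := by
    exact_mod_cast (Korobov.sq_card_le_card_image_mul_energy P fun z => z.1 * z.2).trans
      (Nat.mul_le_mul himg hen)
  have hP2 := (pow_le_pow_left₀ (by positivity) hP 2).trans
    (h1.trans (mul_le_mul_of_nonneg_left (hE M hM) (Nat.cast_nonneg _)))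
  have hT0 : (0 : ℝ) < T := Nat.cast_pos.2 hT
  have hM0 : (0 : ℝ) < M := Nat.cast_pos.2 hM1
  have hN2 : (N : ℝ) = 2 * T := by rw [hN]; push_cast; ring
  rw [Nat.cast_mul, le_div_iff₀ (by rw [hN2]; positivity)]
  refine le_of_mul_le_mul_right ?_ (show 0 < CE * N * M *
    Real.exp ((-tableExponent + 3 / R) * L) by rw [hN2]; positivity)
  refine le_trans ?_ hP2
  rw [hN2, show Real.exp (-(tableExponent + η) * L) * (2 * T * M) *
      (CE * (2 * T) * M * Real.exp ((-tableExponent + 3 / R) * L)) = (T : ℝ) * M * (T * M) *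
      (4 * CE * (Real.exp (-(tableExponent + η) * L) *
        Real.exp ((-tableExponent + 3 / R) * L))) by ring,
    mul_pow, sq ((T : ℝ) * M), ← Real.exp_nat_mul, ← Real.exp_add]
  refine mul_le_mul_of_nonneg_left ((mul_le_mul_of_nonneg_right hbig (Real.exp_nonneg _)).trans ?_)
    (by positivity)
  rw [← Real.exp_add]
  refine Real.exp_le_exp.2 ?_
  have h3 : 3 / (R : ℝ) ≤ ε := by
    rw [div_le_iff₀ hR0]
    linarith
  have h4 := mul_le_mul_of_nonneg_right h3 hL
  push_cast
  rw [hε] at h4 ⊢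
  linarith

/-- `loglog (2 T)` is within `1` of `loglog T`. -/
theorem loglog_two_mul_bounds {T : ℕ} (hT : 2 ≤ T) :
    loglog T ≤ loglog (2 * T : ℕ) ∧ loglog (2 * T : ℕ) ≤ loglog T + 1 := by
  refine ⟨OmegaPhi.loglog_mono hT (by omega), ?_⟩
  have hl : 0 < Real.log T := Real.log_pos (Nat.one_lt_cast.2 (by omega))
  have h2 : Real.log 2 ≤ Real.log T := Real.log_le_log two_pos (Nat.ofNat_le_cast.2 hT)
  rw [loglog, loglog, Nat.cast_mul, Nat.cast_ofNat,
    Real.log_mul two_ne_zero (Nat.cast_ne_zero.2 (by omega))]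
  have h := Real.log_le_log (show 0 < Real.log 2 + Real.log T by
    linarith [Real.log_two_gt_d9]) (show Real.log 2 + Real.log T ≤ 2 * Real.log T by linarith)
  rw [Real.log_mul two_ne_zero hl.ne'] at h
  linarith [Real.log_two_lt_d9]

/-- **The exponent is `δ`.** -/
theorem tendsto_intervalExponent :
    Tendsto (fun T : ℕ => Real.log (1 / intervalDensity T) / loglog T) atTop (𝓝 tableExponent) := by
  obtain ⟨C, hC, hup⟩ := exists_intervalDensity_le
  refine Metric.tendsto_nhds.2 fun ε hε => ?_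
  filter_upwards [hup, eventually_le_intervalDensity (half_pos hε),
    tendsto_loglog.eventually_gt_atTop (max 0 (4 * (|Real.log C| + 1 + ε) / ε)),
    eventually_ge_atTop 2] with T h1 h2 hL hT
  obtain ⟨b1, b2⟩ := loglog_two_mul_bounds hT
  have hL0 : 0 < loglog T := lt_of_le_of_lt (le_max_left _ _) hL
  have hCL := lt_of_le_of_lt (le_max_right _ _) hL
  rw [div_lt_iff₀ hε] at hCL
  have hpos : 0 < intervalDensity T := lt_of_lt_of_le (Real.exp_pos _) h2
  have e1 := Real.log_le_log hpos h1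
  have e2 := Real.log_le_log (Real.exp_pos _) h2
  rw [Real.log_mul hC.ne' (Real.exp_ne_zero _), Real.log_exp] at e1
  rw [Real.log_exp] at e2
  rw [Real.dist_eq, one_div, Real.log_inv, abs_lt, lt_sub_iff_add_lt, sub_lt_iff_lt_add,
    lt_div_iff₀ hL0, div_lt_iff₀ hL0]
  have h3 := le_abs_self (Real.log C)
  have h4 := mul_pos hε hL0
  have h5 := mul_le_mul_of_nonneg_left b1 MultTableExponent.tableExponent_pos.le
  have h6 := mul_le_mul_of_nonneg_left b2
    (show 0 ≤ tableExponent + ε / 2 by linarith [MultTableExponent.tableExponent_pos])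
  have h7 := MultTableExponent.tableExponent_lt
  constructor <;> linarith [abs_nonneg (Real.log C)]

end FA.DivisorInterval

end
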