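import Fermat.Agent.DivisorInterval.Blocks
import Fermat.Agent.LogChowla.Primes
import Fermat.Agent.Maier.Count
import Fermat.Agent.MaynardGaps.Scales

/-!
# Many admissible pairs

With `N = 2 T`, `c = 1 / log 2` and `δ = 1 - (1 + log log 2) / log 2`, there are at least
`T M / (log N) ^ (δ + ε)` coprime pairs `(d, m)` with `T < d ≤ N`, `m ≤ M` and at most
`c (i / R) log log N` prime factors below `exp ((log N) ^ (i / R))` together, for each `i ≤ R`: `d`
is a pair's first entry times one large prime, `m` its second entry times a number prime to `N#`.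
-/

set_option autoImplicit false

noncomputable section

namespace FA.DivisorInterval

open Finset Filter
open FA.ErdosKac (primesUpTo mem_primesUpTo recipSum loglog tendsto_loglog)
open FA.MultTableExponent (critRate tableExponent omegaBelow scaleCut)
open FA.LogChowla (dyadicPrimes mem_dyadicPrimes)
open scoped Topology

/-- The conditions on the prime factors of a pair. -/
def IsEvenPair (N R : ℕ) (z : ℕ × ℕ) : Prop :=
  z.1.Coprime z.2 ∧ ∀ i ∈ Icc 1 R,
    ((omegaBelow (scaleCut R i N) z.1 + omegaBelow (scaleCut R i N) z.2 : ℕ) : ℝ) ≤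
      critRate * ((i : ℝ) / R) * loglog N

/-- The pairs in `[1, N] × [1, M]`. -/
def admissiblePairs (N M R : ℕ) : Finset (ℕ × ℕ) :=
  open Classical in (Icc 1 N ×ˢ Icc 1 M).filter (IsEvenPair N R)

theorem mem_admissiblePairs {N M R : ℕ} {z : ℕ × ℕ} : z ∈ admissiblePairs N M R ↔
    ((1 ≤ z.1 ∧ z.1 ≤ N) ∧ 1 ≤ z.2 ∧ z.2 ≤ M) ∧ IsEvenPair N R z := by
  rw [admissiblePairs]
  refine (@Finset.mem_filter _ _ (_) _ _).trans ?_
  rw [mem_product, mem_Icc, mem_Icc]

/-- Those with the first entry in `(T, 2 T]`. -/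
def upperPairs (T M R : ℕ) : Finset (ℕ × ℕ) :=
  (admissiblePairs (2 * T) M R).filter (T < ·.1)

theorem scaleCut_monotone {R N : ℕ} (hL : 0 ≤ loglog N) : Monotone fun i => scaleCut R i N :=
  fun _ _ h => Nat.floor_le_floor (Real.exp_le_exp.2 (Real.exp_le_exp.2
    (mul_le_mul_of_nonneg_right (div_le_div_of_nonneg_right (Nat.cast_le.2 h) (Nat.cast_nonneg R))
      hL)))

/-- The numbers up to `X` prime to `P`. -/
def coprimeUpTo (P X : ℕ) : Finset ℕ := (Icc 1 X).filter (P.Coprime ·)

theorem totient_mul_le_card_coprimeUpTo (P q : ℕ) :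
    q * P.totient ≤ (coprimeUpTo P (q * P)).card := by
  induction q with
  | zero => simp
  | succ q ih =>
    rw [coprimeUpTo] at ih ⊢
    rw [add_mul, one_mul, add_mul, one_mul]
    refine le_trans (Nat.add_le_add ih (Nat.filter_coprime_Ico_eq_totient P (q * P + 1)).ge)
      (le_trans (card_union_of_disjoint ?_).ge (card_le_card ?_))
    · refine Finset.disjoint_filter_filter (Finset.disjoint_left.2 fun n hn hn' => ?_)
      simp only [mem_Icc, mem_Ico] at hn hn'
      omega
    · intro n hn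
      simp only [mem_union, mem_filter, mem_Icc, mem_Ico] at hn ⊢
      rcases hn with ⟨h1, h2⟩ | ⟨h1, h2⟩ <;> exact ⟨by omega, h2⟩

theorem le_card_coprimeUpTo {P : ℕ} (hP : 0 < P) (X : ℕ) :
    (P.totient : ℝ) / P * X - P.totient ≤ (coprimeUpTo P X).card := by
  have hP0 : (0 : ℝ) < P := Nat.cast_pos.2 hP
  have h1 : (((X / P) * P.totient : ℕ) : ℝ) ≤ (coprimeUpTo P X).card :=
    Nat.cast_le.2 ((totient_mul_le_card_coprimeUpTo P _).trans (card_le_card (filter_subset_filter
      _ (Icc_subset_Icc le_rfl (Nat.div_mul_le_self X P)))))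
  have h2 : (X : ℝ) ≤ ((X / P : ℕ) : ℝ) * P + P := by
    exact_mod_cast (Nat.lt_div_mul_add (a := X) hP).le
  rw [Nat.cast_mul] at h1
  have h3 := mul_le_mul_of_nonneg_left h2 (show 0 ≤ (P.totient : ℝ) / P by positivity)
  have e : (P.totient : ℝ) / P * (((X / P : ℕ) : ℝ) * P + P) =
      ((X / P : ℕ) : ℝ) * P.totient + P.totient := by field_simp
  linarith

/-- A lower bound for `S ^ k / k!` from Stirling's. -/
theorem exp_le_block_weight {S ν A : ℝ} {k : ℕ} (hS : 0 < S)
    (hratio : A - 1 ≤ Real.log S - Real.log ((k : ℝ) + 1) + ν) :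
    Real.exp ((k : ℝ) * (A - ν) - Real.log ((k : ℝ) + 1)) ≤ S ^ k / k.factorial := by
  rw [le_div_iff₀ (Nat.cast_pos.2 k.factorial_pos)]
  refine (mul_le_mul_of_nonneg_left (MultTableExponent.factorial_le k) (Real.exp_nonneg _)).trans ?_
  rw [← Real.exp_log (pow_pos (show (0 : ℝ) < (k : ℝ) + 1 by positivity) (k + 1)),
    ← Real.exp_log (pow_pos hS k), Real.log_pow, Real.log_pow, ← Real.exp_add, ← Real.exp_add]
  refine Real.exp_le_exp.2 ?_
  push_cast
  have := mul_le_mul_of_nonneg_left hratio (Nat.cast_nonneg (α := ℝ) k)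
  linarith

/-- `2 (c / 2) (1 - log (c / 2)) = 2 - δ`. -/
theorem critRate_mul_one_sub_log :
    critRate * (1 - Real.log (critRate / 2)) = 2 - tableExponent := by
  linarith [MultTableExponent.exponent_half]

/-- The size facts. -/
theorem eventually_scale_facts {R : ℕ} (hR : 1 ≤ R) {ν K : ℝ} (hν : 0 < ν) :
    ∀ᶠ N : ℕ in atTop, K ≤ loglog N ∧ 8 * loglog N ≤ Real.exp (loglog N / R) ∧
      Real.log (loglog N + 1) ≤ ν * loglog N := by
  have hR0 : (0 : ℝ) < R := Nat.cast_pos.2 hR
  filter_upwards [tendsto_loglog.eventually_ge_atTop (max (max K 1) (16 * (R : ℝ) ^ 2)),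
    tendsto_loglog.eventually ((Real.isLittleO_log_id_atTop).def (half_pos hν)),
    tendsto_loglog.eventually_ge_atTop (2 / ν)] with N hK hlog hbig
  obtain ⟨⟨hK, hL1⟩, hsq⟩ := max_le_iff.1 hK |>.imp max_le_iff.1 id
  refine ⟨hK, ?_, ?_⟩
  · refine le_trans ?_ (Real.quadratic_le_exp_of_nonneg (by positivity))
    have h1 : 8 * loglog N ≤ (loglog N / R) ^ 2 / 2 := by
      rw [div_pow, div_div, le_div_iff₀ (by positivity)]
      have := mul_le_mul_of_nonneg_left hsq (show 0 ≤ loglog N by linarith)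
      linarith
    have h2 : 0 ≤ loglog N / R := by positivity
    linarith
  · rw [id, Real.norm_eq_abs, Real.norm_of_nonneg (by linarith : 0 ≤ loglog N)] at hlog
    have h1 := Real.log_le_log (show (0 : ℝ) < loglog N + 1 by linarith)
      (show loglog N + 1 ≤ 2 * loglog N by linarith)
    rw [Real.log_mul two_ne_zero (by linarith)] at h1
    rw [div_le_iff₀ hν] at hbig
    linarith [le_abs_self (Real.log (loglog N)), Real.log_two_lt_d9]

/-- **The pairs are many.** -/
theorem eventually_many_upperPairs {ε : ℝ} (hε : 0 < ε) {R : ℕ} (hR : 3 ≤ R)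
    (hεR : 16 ≤ ε * R) :
    ∀ᶠ T : ℕ in atTop, ∀ᶠ M : ℕ in atTop,
      (T : ℝ) * M * Real.exp (-(tableExponent + ε) * loglog (2 * T : ℕ)) ≤
        (upperPairs T M R).card := by
  classical
  obtain ⟨C₁, hC₁⟩ := FA.ErdosKac.exists_abs_recipSum_sub_le
  obtain ⟨c₀, C₀, hc₀, hmert⟩ := MaynardGaps.exists_mertens_upTo
  obtain ⟨M₀, hdy⟩ := eventually_atTop.1 LogChowla.eventually_card_dyadicPrimes_ge
  obtain ⟨hc, hc'⟩ := MultTableExponent.critRate_bounds
  obtain ⟨q, hq⟩ : ∃ q, q = critRate / 2 := ⟨_, rfl⟩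
  have hq0 : 0 < q := by linarith
  have hq1 : q ≤ 1 := by linarith
  have hlq : Real.log q ≤ 0 := Real.log_nonpos hq0.le hq1
  have hR0 : (0 : ℝ) < R := Nat.cast_pos.2 (by omega)
  obtain ⟨ν, hν⟩ : ∃ ν, ν = min (ε / (16 * R)) 1 := ⟨_, rfl⟩
  have hν0 : 0 < ν := hν ▸ lt_min (by positivity) one_pos
  have hνε : 16 * R * ν ≤ ε := by
    rw [mul_comm, ← le_div_iff₀ (by positivity)]
    exact hν ▸ min_le_left _ _
  have hν1 : ν ≤ 1 := hν ▸ min_le_right _ _
  obtain ⟨C, hC⟩ : ∃ C, C = 2 * C₁ + 3 := ⟨_, rfl⟩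
  have hC0 : 0 ≤ C := by linarith [(abs_nonneg _).trans (hC₁ 2 le_rfl)]
  obtain ⟨eν, heν⟩ : ∃ eν, eν = Real.exp (-ν) := ⟨_, rfl⟩
  have heν1 : eν < 1 := heν ▸ Real.exp_lt_one_iff.2 (by linarith)
  have heν0 : 0 < eν := heν ▸ Real.exp_pos _
  have h2 : Tendsto (fun T : ℕ => 2 * T) atTop atTop := tendsto_id.const_mul_atTop' two_pos
  filter_upwards [h2.eventually (eventually_scale_facts (R := R) (by omega) hν0
      (K := R + (R : ℝ) / (q * (1 - eν)) * (1 + q * C) + 2 * R * (1 - Real.log q) / ν +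
        4 * |Real.log (c₀ / 64)| / ε + R * C)),
    eventually_ge_atTop 2, eventually_ge_atTop (M₀ * M₀)]
    with T ⟨hK, hexpR, hlogL⟩ hT hM₀
  have hsqrt : M₀ ≤ Nat.sqrt T := Nat.le_sqrt.2 hM₀
  obtain ⟨N, hN⟩ : ∃ N, N = 2 * T := ⟨_, rfl⟩
  rw [← hN] at hK hexpR hlogL
  obtain ⟨L, hLdef⟩ : ∃ L, L = loglog N := ⟨_, rfl⟩
  rw [← hLdef] at hK hexpR hlogL
  have t1 : 0 ≤ (R : ℝ) / (q * (1 - eν)) * (1 + q * C) :=
    mul_nonneg (div_nonneg hR0.le (mul_nonneg hq0.le (by linarith))) (by positivity)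
  have t2 : 0 ≤ 2 * R * (1 - Real.log q) / ν :=
    div_nonneg (mul_nonneg (by positivity) (by linarith)) hν0.le
  have t3 : 0 ≤ 4 * |Real.log (c₀ / 64)| / ε := by positivity
  have t4 : 0 ≤ (R : ℝ) * C := by positivity
  have hRL : (R : ℝ) ≤ L := by linarith
  have hR3 : (3 : ℝ) ≤ R := Nat.ofNat_le_cast.2 hR
  have hL0 : 0 < L := by linarith
  have hL0' : 0 ≤ loglog N := hLdef ▸ hL0.le
  have hlN : 0 < Real.log N := Real.log_pos (Nat.one_lt_cast.2 (by omega))
  have hexpL : Real.exp L = Real.log N := by rw [hLdef, loglog, Real.exp_log hlN]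
  obtain ⟨w, hw⟩ : ∃ w : ℕ → ℕ, w = fun i => scaleCut R i N := ⟨_, rfl⟩
  have hwm : Monotone w := hw ▸ scaleCut_monotone hL0'
  have hwR : w R = N := by
    rw [hw]
    exact MultTableExponent.scaleCut_self (by omega) (by omega)
  have hw2 : ∀ i, 2 ≤ w i := fun i => hw ▸ MultTableExponent.two_le_scaleCut hL0'
  -- the blocks
  obtain ⟨k, hk⟩ : ∃ k, k = ⌊q * L / R⌋₊ := ⟨_, rfl⟩
  have hk1 : (k : ℝ) ≤ q * L / R := hk ▸ Nat.floor_le (by positivity)
  have hk2 : q * L / R ≤ (k : ℝ) + 1 := hk ▸ (Nat.lt_floor_add_one _).le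
  obtain ⟨S, hS⟩ : ∃ S, S = L / R - C := ⟨_, rfl⟩
  have hkS : ((k : ℝ) + 1) * eν ≤ q * S := by
    have h1 : (R : ℝ) / (q * (1 - eν)) * (1 + q * C) ≤ L := by linarith
    rw [div_mul_eq_mul_div, div_le_iff₀ (mul_pos hq0 (by linarith))] at h1
    have h2 := mul_le_mul_of_nonneg_right hk1 heν0.le
    have h3 : (1 + q * C) ≤ L / R * (q * (1 - eν)) := by
      rw [div_mul_eq_mul_div, le_div_iff₀ hR0]
      linarith
    rw [hS, mul_sub, show q * L / R = q * (L / R) from mul_div_assoc _ _ _] at *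
    linarith
  have hS0 : 0 < S := by
    by_contra hS0
    have := mul_pos (show (0 : ℝ) < (k : ℝ) + 1 by positivity) heν0
    have := mul_nonpos_of_nonneg_of_nonpos hq0.le (not_lt.1 hS0)
    linarith
  have hkw : 2 * k ≤ w 1 := by
    rw [hw]
    refine Nat.le_floor ?_
    have h1 : q * L / R ≤ L := by
      rw [div_le_iff₀ hR0]
      exact (mul_le_of_le_one_left hL0.le hq1).trans
        (le_mul_of_one_le_right hL0.le (by linarith))
    push_cast
    rw [← hLdef]
    have h2 := Real.add_one_le_exp (Real.exp (1 / R * L))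
    rw [one_div_mul_eq_div] at h2 ⊢
    linarith
  have hblocks : ∀ i ∈ Icc 1 (R - 2),
      S + 1 ≤ ∑ p ∈ blockPrimes (w i) (w (i + 1)), (p : ℝ)⁻¹ := fun i _ => by
    rw [sum_blockPrimes (hwm (Nat.le_succ i))]
    have h1 := (abs_le.1 (hC₁ _ (hw2 (i + 1)))).1
    have h2 := (abs_le.1 (hC₁ _ (hw2 i))).2
    have h3 := MultTableExponent.le_loglog_scaleCut (R := R) (r := i + 1) hL0'
    have h4 := MultTableExponent.loglog_le_of_le_scaleCut (R := R) (r := i) (N := N) (hw2 i)
      (le_of_eq (by rw [hw]))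
    have h5 : loglog (scaleCut R (i + 1) N) = Real.log (Real.log (w (i + 1))) := by
      rw [hw]; rfl
    rw [show loglog (w i) = Real.log (Real.log (w i)) from rfl, ← hLdef] at h4
    rw [h5, ← hLdef, Nat.cast_succ, add_div, add_mul, one_div_mul_eq_div] at h3
    linarith
  obtain ⟨F, hF, hsum⟩ := exists_split_family hwm hS0.le hkw (R - 2) hblocks
  have e1 : R - 2 + 1 = R - 1 := by omega
  -- the sum over the family
  have hmain : Real.exp ((2 - tableExponent - ε / 2) * L) ≤ ∑ z ∈ F, ((z.1 : ℝ) * z.2)⁻¹ := by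
    refine le_trans ?_ hsum
    have h1 : Real.exp ((k : ℝ) * (1 - Real.log q - ν) - Real.log ((k : ℝ) + 1)) ≤
        S ^ k / k.factorial := by
      refine exp_le_block_weight hS0 ?_
      have h := Real.log_le_log (by positivity) hkS
      rw [Real.log_mul (by positivity) heν0.ne', Real.log_mul hq0.ne' hS0.ne', heν,
        Real.log_exp] at h
      linarith
    refine le_trans ?_ (pow_le_pow_left₀ (by positivity) (pow_le_pow_left₀ (Real.exp_nonneg _) h1 2)
      (R - 2))
    rw [← Real.exp_nat_mul, ← Real.exp_nat_mul, Real.exp_le_exp, Nat.cast_sub (by omega : 2 ≤ R)]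
    push_cast
    have hkL : Real.log ((k : ℝ) + 1) ≤ ν * L := by
      refine le_trans (Real.log_le_log (by positivity) ?_) hlogL
      have : q * L / R ≤ L := by
        rw [div_le_iff₀ hR0]
        exact (mul_le_of_le_one_left hL0.le hq1).trans
          (le_mul_of_one_le_right hL0.le (by linarith))
      linarith
    have hA0 : 0 ≤ 1 - Real.log q - ν := by linarith
    have g1 := mul_le_mul_of_nonneg_right (show q * L / R - 1 ≤ (k : ℝ) by linarith) hA0
    have g2 := mul_le_mul_of_nonneg_left (show (q * L / R - 1) * (1 - Real.log q - ν) - ν * L ≤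
      (k : ℝ) * (1 - Real.log q - ν) - Real.log ((k : ℝ) + 1) by linarith)
      (show (0 : ℝ) ≤ ((R : ℝ) - 2) * 2 by linarith)
    refine le_trans ?_ (g2.trans_eq (by ring))
    have e : ((R : ℝ) - 2) * 2 * ((q * L / R - 1) * (1 - Real.log q - ν) - ν * L) =
        (2 - tableExponent) * L - 2 * (2 - tableExponent) * (L / R) -
          ((R : ℝ) - 2) * 2 * (q * (L / R) * ν + ν * L + (1 - Real.log q - ν)) := by
      rw [← critRate_mul_one_sub_log, show critRate = 2 * q by linarith,
        show 2 * q / 2 = q by ring]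
      field_simp
      ring
    rw [e]
    have g3 : 2 * R * (1 - Real.log q) ≤ ν * L := by
      have : 2 * R * (1 - Real.log q) / ν ≤ L := by linarith
      rwa [div_le_iff₀ hν0, mul_comm L] at this
    have g4 : q * (L / R) * ν ≤ L * ν := mul_le_mul_of_nonneg_right
      ((mul_le_of_le_one_left (by positivity) hq1).trans (div_le_self hL0.le (by linarith)))
      hν0.le
    have g5 : 2 * (2 - tableExponent) * (L / R) ≤ ε / 4 * L := by
      rw [← mul_div_assoc, div_le_iff₀ hR0]
      have := mul_le_mul_of_nonneg_right hεR hL0.le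
      have := mul_nonneg MultTableExponent.tableExponent_pos.le hL0.le
      linarith
    have g6 := mul_le_mul_of_nonneg_left g4 (show (0 : ℝ) ≤ ((R : ℝ) - 2) * 2 by linarith)
    have g7 := mul_le_mul_of_nonneg_right hνε hL0.le
    have g8 : 0 ≤ ν * L := by positivity
    have g9 := mul_le_mul_of_nonneg_right (show (1 : ℝ) ≤ R by linarith) g8
    have g10 : ((R : ℝ) - 2) * 2 * (1 - Real.log q - ν) ≤ 2 * R * (1 - Real.log q) := by
      have := mul_nonneg hR0.le hν0.le
      have := mul_le_mul (show (R : ℝ) - 2 ≤ R by linarith)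
        (show 1 - Real.log q - ν ≤ 1 - Real.log q by linarith) hA0 hR0.le
      linarith
    linarith
  -- the sizes
  have hsmall : ∀ x : ℕ, (x : ℝ) ≤ Real.exp (L * Real.exp (((R - 1 : ℕ) : ℝ) / R * L)) →
      x ≤ Nat.sqrt T := fun x hx => by
    rw [Nat.le_sqrt]
    have h1 : L * Real.exp (((R - 1 : ℕ) : ℝ) / R * L) ≤ Real.log N / 8 := by
      rw [← hexpL, Nat.cast_sub (by omega : 1 ≤ R), Nat.cast_one, sub_div, div_self hR0.ne',
        sub_mul, one_mul, one_div_mul_eq_div, Real.exp_sub, ← mul_div_assoc,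
        div_le_div_iff₀ (Real.exp_pos _) (by norm_num)]
      have := mul_le_mul_of_nonneg_left hexpR (Real.exp_nonneg L)
      linarith
    have h2 : ((x * x : ℕ) : ℝ) ≤ Real.exp (Real.log N / 4) := by
      rw [show Real.log N / 4 = Real.log N / 8 + Real.log N / 8 by ring, Real.exp_add]
      push_cast
      exact mul_le_mul (hx.trans (Real.exp_le_exp.2 h1)) (hx.trans (Real.exp_le_exp.2 h1))
        (Nat.cast_nonneg x) (Real.exp_nonneg _)
    refine Nat.cast_le.1 (h2.trans ?_ : ((x * x : ℕ) : ℝ) ≤ (T : ℝ))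
    rw [← Real.exp_log (show (0 : ℝ) < T by exact_mod_cast (show 0 < T by omega)),
      Real.exp_le_exp, hN, Nat.cast_mul, Nat.cast_ofNat,
      Real.log_mul two_ne_zero (by exact_mod_cast (show T ≠ 0 by omega))]
    have h3 := Real.log_le_log two_pos (Nat.ofNat_le_cast.2 hT : (2 : ℝ) ≤ T)
    linarith [Real.log_two_gt_d9]
  have hwsmall : w (R - 1) ≤ Nat.sqrt T := hsmall _ <| by
    rw [hw]
    refine (Nat.floor_le (Real.exp_nonneg _)).trans (Real.exp_le_exp.2 ?_)
    rw [← hLdef]
    exact le_mul_of_one_le_left (Real.exp_nonneg _) (by linarith)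
  have hpow : ∀ x : ℕ, x ≤ w (R - 1) ^ (k * (R - 2)) → x ≤ Nat.sqrt T := fun x hx => by
    refine hsmall x ((Nat.cast_le.2 hx).trans ?_)
    rw [Nat.cast_pow, hw]
    refine (pow_le_pow_left₀ (Nat.cast_nonneg _) (Nat.floor_le (Real.exp_nonneg _)) _).trans ?_
    rw [← Real.exp_nat_mul, ← hLdef]
    refine Real.exp_le_exp.2 (mul_le_mul_of_nonneg_right ?_ (Real.exp_nonneg _))
    push_cast [Nat.cast_sub (by omega : 2 ≤ R)]
    have h1 := mul_le_mul hk1 (show (R : ℝ) - 2 ≤ R by linarith) (by linarith) (by positivity)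
    rw [div_mul_cancel₀ _ hR0.ne'] at h1
    exact h1.trans (mul_le_of_le_one_left hL0.le hq1)
  obtain ⟨P, hP⟩ : ∃ P, P = primorial N := ⟨_, rfl⟩
  have hP0 : 0 < P := hP ▸ primorial_pos N
  filter_upwards [eventually_ge_atTop (4 * N * P)] with M hM
  obtain ⟨G, hG⟩ : ∃ G, G = F.sigma fun z =>
      dyadicPrimes (T / z.1) ×ˢ coprimeUpTo P (M / z.2) := ⟨_, rfl⟩
  have hfibre : ∀ z ∈ F, c₀ * T * M / (64 * Real.log N ^ 2) * ((z.1 : ℝ) * z.2)⁻¹ ≤
      ((dyadicPrimes (T / z.1) ×ˢ coprimeUpTo P (M / z.2)).card : ℕ) := fun z hz => by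
    obtain ⟨ha, hb, -, -, hsa, hsb, -⟩ := hF z hz
    rw [e1] at hsa hsb
    have haT := (hpow _ hsa).trans (Nat.sqrt_le_self T)
    have hbT := (hpow _ hsb).trans (Nat.sqrt_le_self T)
    obtain ⟨X, hX⟩ : ∃ X, X = T / z.1 := ⟨_, rfl⟩
    have hXs : Nat.sqrt T ≤ X := hX ▸ (Nat.le_div_iff_mul_le ha).2
      ((Nat.mul_le_mul_left _ (hpow _ hsa)).trans (Nat.sqrt_le T))
    have ha0 : (0 : ℝ) < z.1 := Nat.cast_pos.2 ha
    have hb0 : (0 : ℝ) < z.2 := Nat.cast_pos.2 hb
    have hN1 : (2 : ℝ) ≤ N := Nat.ofNat_le_cast.2 (by omega)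
    have hXge : (T : ℝ) ≤ 2 * ((X : ℝ) * z.1) := by
      have h := Nat.lt_div_mul_add (a := T) ha
      have h' : 1 ≤ T / z.1 := (Nat.one_le_div_iff ha).2 haT
      have h'' := Nat.le_mul_of_pos_left z.1 h'
      rw [hX]
      exact_mod_cast (show T ≤ 2 * (T / z.1 * z.1) by omega)
    have hX2 : 2 ≤ X := le_trans (hw2 (R - 1)) (hwsmall.trans hXs)
    have hXN : Real.log X ≤ Real.log N := Real.log_le_log (Nat.cast_pos.2 (by omega))
      (Nat.cast_le.2 (hX ▸ (Nat.div_le_self _ _).trans (by omega)))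
    have hD : (T : ℝ) / (8 * Real.log N * z.1) ≤ (dyadicPrimes X).card := by
      refine le_trans ?_ (hdy X (hsqrt.trans hXs))
      refine le_trans ?_ (div_le_div_of_nonneg_left (Nat.cast_nonneg X)
        (mul_pos (by norm_num) (Real.log_pos (Nat.one_lt_cast.2 (by omega))))
        (mul_le_mul_of_nonneg_left hXN (by norm_num)))
      rw [div_le_div_iff₀ (by positivity) (by positivity)]
      have := mul_le_mul_of_nonneg_left hXge (show 0 ≤ 4 * Real.log N by positivity)
      linarith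
    have hdens : c₀ / (2 * Real.log N) ≤ (P.totient : ℝ) / P := by
      rw [hP, Maier.totient_primorial_eq]
      have h := (hmert N (by omega)).1
      simp only [one_div] at h
      refine le_trans (div_le_div_of_nonneg_left hc₀.le
        (Real.log_pos (Nat.one_lt_cast.2 (by omega))) ?_) h
      rw [show (2 : ℝ) * Real.log N = Real.log ((N : ℝ) ^ 2) by rw [Real.log_pow]; norm_num]
      refine Real.log_le_log (by positivity) ?_
      push_cast
      have := mul_le_mul_of_nonneg_right hN1 (show (0 : ℝ) ≤ N by linarith)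
      rw [sq]
      linarith
    have hbM : 4 * z.2 * P ≤ M := le_trans (Nat.mul_le_mul_right P
      (Nat.mul_le_mul_left 4 (hbT.trans (by omega)))) hM
    have hC : c₀ * M / (8 * Real.log N * z.2) ≤ (coprimeUpTo P (M / z.2)).card := by
      refine le_trans ?_ (le_card_coprimeUpTo hP0 _)
      have hP0' : (0 : ℝ) < P := Nat.cast_pos.2 hP0
      have hbM' : 4 * (z.2 : ℝ) * P ≤ M := by exact_mod_cast hbM
      have h1 : (M : ℝ) ≤ ((M / z.2 : ℕ) : ℝ) * z.2 + z.2 := by
        exact_mod_cast (Nat.lt_div_mul_add (a := M) hb).le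
      have h1' : (z.2 : ℝ) ≤ (z.2 : ℝ) * P := le_mul_of_one_le_right hb0.le
        (Nat.one_le_cast.2 hP0)
      have h2 : (M : ℝ) / (2 * z.2) ≤ ((M / z.2 : ℕ) : ℝ) := by
        rw [div_le_iff₀ (by positivity)]
        linarith
      obtain ⟨ρ, hρ⟩ : ∃ ρ, ρ = (P.totient : ℝ) / P := ⟨_, rfl⟩
      rw [← hρ] at hdens ⊢
      have hρ0 : 0 ≤ ρ := hρ ▸ by positivity
      have h3 : (P.totient : ℝ) ≤ ρ * (M / (4 * z.2)) := by
        rw [show (P.totient : ℝ) = ρ * P by rw [hρ, div_mul_cancel₀ _ hP0'.ne']]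
        refine mul_le_mul_of_nonneg_left ?_ hρ0
        rw [le_div_iff₀ (by positivity)]
        linarith
      have h4 := mul_le_mul_of_nonneg_left h2 hρ0
      have h5 := mul_le_mul_of_nonneg_right hdens (show (0 : ℝ) ≤ M / (4 * z.2) by positivity)
      have e : c₀ / (2 * Real.log N) * ((M : ℝ) / (4 * z.2)) =
          c₀ * M / (8 * Real.log N * z.2) := by field_simp; ring
      have e' : ρ * ((M : ℝ) / (2 * z.2)) = 2 * (ρ * (M / (4 * z.2))) := by field_simp; ring
      linarith
    rw [card_product, Nat.cast_mul, ← hX]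
    refine le_trans (le_of_eq ?_) (mul_le_mul hD hC (by positivity) (Nat.cast_nonneg _))
    field_simp
    ring
  have hcard : (G.card : ℝ) ≤ (upperPairs T M R).card := by
    refine Nat.cast_le.2 (card_le_card_of_injOn
      (fun u : Σ _ : ℕ × ℕ, ℕ × ℕ => (u.1.1 * u.2.1, u.1.2 * u.2.2)) ?_ ?_)
    · rintro ⟨⟨a, b⟩, p, r⟩ hu
      rw [mem_coe, hG, mem_sigma, mem_product, mem_dyadicPrimes, coprimeUpTo, mem_filter,
        mem_Icc] at hu
      obtain ⟨hz, ⟨hp, hpl, hpu⟩, ⟨hr1, hrM⟩, hrP⟩ := hu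
      simp only at hp hpl hpu hr1 hrM hrP
      obtain ⟨ha, hb, hco, hprimes, hsa, hsb, hca, hcb, hbelow⟩ := hF _ hz
      simp only at ha hb hco hprimes hsa hsb hca hcb hbelow
      rw [e1] at hprimes hsa hsb
      have hpw : w (R - 1) < p := lt_of_le_of_lt (hwsmall.trans ((Nat.le_div_iff_mul_le ha).2
        ((Nat.mul_le_mul_left _ (hpow _ hsa)).trans (Nat.sqrt_le T)))) hpl
      have h1 : T < a * p := by
        rw [Nat.div_lt_iff_lt_mul ha] at hpl
        rwa [mul_comm]
      have h2 : a * p ≤ N := by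
        refine (Nat.mul_le_mul_left a hpu).trans ?_
        rw [mul_left_comm, hN]
        exact Nat.mul_le_mul_left 2 (Nat.mul_div_le T a)
      have hpN : p ≤ N := (Nat.le_mul_of_pos_left p ha).trans h2
      have hrough : ∀ t ∈ r.primeFactors, N < t := fun t ht => by
        obtain ⟨ht, htr, -⟩ := Nat.mem_primeFactors.1 ht
        by_contra hle
        exact Nat.not_coprime_of_dvd_of_dvd ht.one_lt
          ((hP ▸ ht.dvd_primorial_iff.2 (not_lt.1 hle) : t ∣ P)) htr hrP
      have hwN : ∀ i ∈ Icc 1 R, w i ≤ N := fun i hi => (hwm (mem_Icc.1 hi).2).trans hwR.le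
      have f1 : (a * p).primeFactors = a.primeFactors ∪ {p} := by
        rw [Nat.primeFactors_mul ha.ne' hp.ne_zero, hp.primeFactors]
      have f2 : (b * r).primeFactors = b.primeFactors ∪ r.primeFactors :=
        Nat.primeFactors_mul hb.ne' (by omega)
      rw [mem_coe, upperPairs, mem_filter, mem_admissiblePairs, IsEvenPair, ← hN]
      refine ⟨⟨⟨⟨Nat.mul_pos ha hp.pos, h2⟩, Nat.mul_pos hb hr1, ?_⟩, ?_, fun i hi => ?_⟩, h1⟩
      · exact (Nat.mul_le_mul_left b hrM).trans (Nat.mul_div_le M b)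
      · rw [← Nat.disjoint_primeFactors (Nat.mul_pos ha hp.pos).ne' (Nat.mul_pos hb hr1).ne', f1,
          f2, disjoint_union_left, disjoint_union_right, disjoint_union_right]
        refine ⟨⟨hco.disjoint_primeFactors, disjoint_left.2 fun t ht ht' => ?_⟩,
          ⟨disjoint_left.2 fun t ht ht' => ?_, disjoint_left.2 fun t ht ht' => ?_⟩⟩
        · have h := hprimes t (mem_union_left _ ht)
          have h' := hrough t ht'
          have := hwm (show R - 1 ≤ R by omega)
          omega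
        · rw [mem_singleton] at ht
          subst ht
          exact absurd (hprimes t (mem_union_right _ ht')) (not_le.2 hpw)
        · rw [mem_singleton] at ht
          subst ht
          exact absurd (hrough t ht') (not_lt.2 hpN)
      · have hir := mem_Icc.1 hi
        have e2 : (r.primeFactors.filter fun t => t ≤ w i) = ∅ := filter_eq_empty_iff.2
          fun t ht => not_le.2 ((hwN i hi).trans_lt (hrough t ht))
        have hb' : omegaBelow (w i) (b * r) = omegaBelow (w i) b := by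
          rw [omegaBelow, omegaBelow, f2, filter_union, e2, union_empty]
        have h2k : 2 * (k : ℝ) ≤ critRate * L / R := by
          rw [show critRate * L / R = 2 * (q * L / R) by rw [hq]; ring]
          linarith
        rw [show scaleCut R i N = w i by rw [hw], ← hLdef, hb']
        rcases Nat.lt_or_ge i R with hlt | hge
        · have ha' : omegaBelow (w i) (a * p) = omegaBelow (w i) a := by
            rw [omegaBelow, omegaBelow, f1, filter_union, filter_singleton,
              if_neg (not_le.2 ((hwm (show i ≤ R - 1 by omega)).trans_lt hpw)), union_empty]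
          rw [ha']
          refine (Nat.cast_le.2 (hbelow i hir.1)).trans ?_
          rw [Nat.cast_mul, Nat.cast_mul, Nat.cast_sub hir.1]
          push_cast
          have h3 := mul_le_mul_of_nonneg_right h2k
            (show (0 : ℝ) ≤ (i : ℝ) - 1 from sub_nonneg.2 (Nat.one_le_cast.2 hir.1))
          have h4 : 0 ≤ critRate * L / R := by positivity
          rw [show critRate * ((i : ℝ) / R) * L = critRate * L / R * i by ring]
          linarith
        · have ha' : omegaBelow (w i) (a * p) ≤ a.primeFactors.card + 1 := by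
            refine (omegaBelow_le_card _ _).trans ?_
            rw [f1]
            exact (card_union_le _ _).trans (by rw [card_singleton])
          refine (Nat.cast_le.2 (Nat.add_le_add ha' (omegaBelow_le_card _ b))).trans ?_
          rw [hca, hcb, show i = R by omega, div_self hR0.ne', mul_one]
          push_cast [Nat.cast_sub (by omega : 2 ≤ R)]
          have h3 := mul_le_mul_of_nonneg_right h2k (show (0 : ℝ) ≤ (R : ℝ) - 2 by linarith)
          have h4 : 1 ≤ critRate * L / R := by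
            rw [one_le_div hR0]
            exact hRL.trans (le_mul_of_one_le_left hL0.le (by linarith))
          have h5 : critRate * L / R * R = critRate * L := div_mul_cancel₀ _ hR0.ne'
          linarith
    · rintro ⟨⟨a, b⟩, p, r⟩ hu ⟨⟨a', b'⟩, p', r'⟩ hu' h
      rw [mem_coe, hG, mem_sigma, mem_product, mem_dyadicPrimes, coprimeUpTo, mem_filter,
        mem_Icc] at hu hu'
      obtain ⟨hz, ⟨hp, hpl, -⟩, ⟨hr1, -⟩, hrP⟩ := hu
      obtain ⟨hz', ⟨hp', hpl', -⟩, ⟨hr1', -⟩, hrP'⟩ := hu'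
      simp only [Prod.mk.injEq] at h hpl hpl'
      obtain ⟨ha, hb, -, hpr, hsa, hsb, -⟩ := hF _ hz
      obtain ⟨ha', hb', -, hpr', hsa', hsb', -⟩ := hF _ hz'
      simp only at ha hb hpr hsa hsb ha' hb' hpr' hsa' hsb'
      rw [e1] at hsa hsb hsa' hsb' hpr hpr'
      have hbig : ∀ a, 0 < a → a ≤ w (R - 1) ^ (k * (R - 2)) → ∀ p, T / a < p → w (R - 1) < p :=
        fun a ha hsa p hpl => lt_of_le_of_lt (hwsmall.trans ((Nat.le_div_iff_mul_le ha).2
          ((Nat.mul_le_mul_left _ (hpow _ hsa)).trans (Nat.sqrt_le T)))) hpl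
      have hpp : p = p' := by
        have hd : p ∣ a' * p' := h.1 ▸ dvd_mul_left p a
        rcases hp.dvd_mul.1 hd with hd' | hd'
        · exact absurd (hpr' p (mem_union_left _ (Nat.mem_primeFactors.2 ⟨hp, hd', ha'.ne'⟩)))
            (not_le.2 (hbig a ha hsa p hpl))
        · exact (Nat.prime_dvd_prime_iff_eq hp hp').1 hd'
      subst hpp
      obtain rfl : a = a' := Nat.eq_of_mul_eq_mul_right hp.pos h.1
      have hcop : ∀ b r, (∀ t ∈ b.primeFactors, t ≤ w (R - 1)) → b ≠ 0 → P.Coprime r →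
          b.Coprime r := fun b r hb hb0 hrP => Nat.coprime_of_dvd fun t ht htb htr =>
        Nat.not_coprime_of_dvd_of_dvd ht.one_lt (hP ▸ ht.dvd_primorial_iff.2
          ((hb t (Nat.mem_primeFactors.2 ⟨ht, htb, hb0⟩)).trans
            ((hwm (show R - 1 ≤ R by omega)).trans hwR.le))) htr hrP
      obtain rfl : b = b' := Nat.dvd_antisymm
        ((hcop b r' (fun t ht => hpr t (mem_union_right _ ht)) hb.ne' hrP').dvd_of_dvd_mul_right
          (h.2 ▸ dvd_mul_right b r))
        ((hcop b' r (fun t ht => hpr' t (mem_union_right _ ht)) hb'.ne' hrP).dvd_of_dvd_mul_right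
          (h.2.symm ▸ dvd_mul_right b' r'))
      obtain rfl : r = r' := Nat.eq_of_mul_eq_mul_left hb h.2
      rfl
  refine le_trans ?_ hcard
  rw [← hN, ← hLdef, hG, card_sigma, Nat.cast_sum]
  refine le_trans ?_ (sum_le_sum hfibre)
  rw [← mul_sum]
  refine le_trans ?_ (mul_le_mul_of_nonneg_left hmain (by positivity))
  have hl : -(ε / 4 * L) ≤ Real.log (c₀ / 64) := by
    have h : 4 * |Real.log (c₀ / 64)| / ε ≤ L := by linarith
    rw [div_le_iff₀ hε] at h
    linarith [neg_abs_le (Real.log (c₀ / 64))]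
  have hsq : Real.log N ^ 2 = Real.exp (2 * L) := by
    rw [← hexpL, ← Real.exp_nat_mul, Nat.cast_ofNat]
  rw [show c₀ * T * M / (64 * Real.log N ^ 2) = (T : ℝ) * M * ((c₀ / 64) / Real.log N ^ 2) by
      ring, hsq, ← Real.exp_log (show (0 : ℝ) < c₀ / 64 by positivity), ← Real.exp_sub,
    mul_assoc ((T : ℝ) * M), ← Real.exp_add]
  refine mul_le_mul_of_nonneg_left (Real.exp_le_exp.2 ?_) (by positivity)
  have := mul_nonneg hε.le hL0.le
  linarith

end FA.DivisorInterval

end
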